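/-
S55 / 32c-SECOND-INEQ-INST, part A3 (helper30): DENSITY of `σ K` in `ℚ_q(σ K)`.

For a field `K` of characteristic zero and ANY ring homomorphism `σ : K →+* PadicAlgCl q`, the
image `σ K` is dense in the local field `ℚ_q(σ K) = IntermediateField.adjoin ℚ_[q] (range σ)`
(generic copy of `ProfinLoc80.exists_norm_sub_lt`).  Specialised to helper53's `PlaceData`:
`σ_v K` is dense in `D.locField v`; every nonzero element of `D.locField v` has the norm of an
element of `σ_v K`.  This is the `hdense` binder of `LocBridge57/Hensel`.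
-/
import Mathlib
import Fermat.Agent.S55.SecondInst53.PlaceModel

set_option autoImplicit false

namespace Fermat.Agent.S55.SecondInst30.Dense

open IsDedekindDomain NumberField Fermat.Agent.S55.LocField17
  Fermat.Agent.S55.SecondInst53.PlaceModel

section Generic

variable {q : ℕ} [Fact q.Prime] {K : Type*} [Field K] [CharZero K]

omit [CharZero K] in
/-- `ℚ_q(σ K)` is the `ℚ_q`-span of `σ K`. -/
theorem adjoin_toSubmodule (σ : K →+* PadicAlgCl q) :
    Subalgebra.toSubmodule (IntermediateField.adjoin ℚ_[q] (Set.range σ)).toSubalgebra =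
      Submodule.span ℚ_[q] (Set.range σ) := by
  rw [IntermediateField.adjoin_toSubalgebra, Algebra.adjoin_eq_span]
  congr 1
  have : Set.range σ = ((MonoidHom.mrange (σ : K →* PadicAlgCl q) : Submonoid (PadicAlgCl q)) :
      Set (PadicAlgCl q)) := by
    ext y
    simp
  rw [this, Submonoid.closure_eq]

/-- **density**: `σ K` is dense in `ℚ_q(σ K)`. -/
theorem exists_norm_sub_lt_of_mem (σ : K →+* PadicAlgCl q) {y : PadicAlgCl q}
    (hy : y ∈ IntermediateField.adjoin ℚ_[q] (Set.range σ)) {ε : ℝ} (hε : 0 < ε) :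
    ∃ x : K, ‖y - σ x‖ < ε := by
  have hy' : y ∈ Submodule.span ℚ_[q] (Set.range σ) := by
    rw [← adjoin_toSubmodule]; exact hy
  clear hy
  induction hy' using Submodule.span_induction generalizing ε with
  | mem y hy =>
    obtain ⟨x, rfl⟩ := hy
    exact ⟨x, by simpa using hε⟩
  | zero => exact ⟨0, by simpa using hε⟩
  | add y z _ _ hy hz =>
    obtain ⟨x, hx⟩ := hy (half_pos hε)
    obtain ⟨x', hx'⟩ := hz (half_pos hε)
    refine ⟨x + x', ?_⟩
    have : y + z - σ (x + x') = (y - σ x) + (z - σ x') := by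
      rw [map_add]; ring
    rw [this]
    exact (norm_add_le _ _).trans_lt (by linarith)
  | smul c y _ hy =>
    have hc1 : 0 < ‖c‖ + 1 := by positivity
    obtain ⟨x, hx⟩ := hy (div_pos (half_pos hε) hc1)
    have hx1 : 0 < ‖σ x‖ + 1 := by positivity
    obtain ⟨a, ha⟩ := Metric.denseRange_iff.mp (Padic.denseRange_ratCast q) c
      (ε / 2 / (‖σ x‖ + 1)) (div_pos (half_pos hε) hx1)
    refine ⟨(a : K) * x, ?_⟩
    have hax : σ ((a : K) * x) = ((a : ℚ_[q])) • σ x := by
      rw [map_mul, map_ratCast, Algebra.smul_def, map_ratCast]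
    have : c • y - σ ((a : K) * x) = c • (y - σ x) + (c - (a : ℚ_[q])) • σ x := by
      rw [hax, smul_sub, sub_smul]; abel
    rw [this]
    refine (norm_add_le _ _).trans_lt ?_
    rw [norm_smul, norm_smul]
    have h1 : ‖c‖ * ‖y - σ x‖ < ε / 2 := by
      calc ‖c‖ * ‖y - σ x‖ ≤ (‖c‖ + 1) * ‖y - σ x‖ := by
            apply mul_le_mul_of_nonneg_right _ (norm_nonneg _); linarith
        _ < (‖c‖ + 1) * (ε / 2 / (‖c‖ + 1)) := mul_lt_mul_of_pos_left hx hc1
        _ = ε / 2 := by field_simp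
    have h2 : ‖c - (a : ℚ_[q])‖ * ‖σ x‖ < ε / 2 := by
      rw [dist_eq_norm] at ha
      calc ‖c - (a : ℚ_[q])‖ * ‖σ x‖ ≤ ‖c - (a : ℚ_[q])‖ * (‖σ x‖ + 1) := by
            apply mul_le_mul_of_nonneg_left _ (norm_nonneg _); linarith
        _ < (ε / 2 / (‖σ x‖ + 1)) * (‖σ x‖ + 1) := mul_lt_mul_of_pos_right ha hx1
        _ = ε / 2 := by field_simp
    linarith

/-- ultrametric: an element closer to `y` than `‖y‖` has the norm of `y`. -/
theorem norm_eq_of_norm_sub_lt {y z : PadicAlgCl q} (h : ‖y - z‖ < ‖y‖) : ‖z‖ = ‖y‖ := by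
  have hu : ∀ a b : PadicAlgCl q, ‖a + b‖ ≤ max ‖a‖ ‖b‖ :=
    fun a b => IsUltrametricDist.norm_add_le_max a b
  apply le_antisymm
  · have h1 : z = y + -(y - z) := by ring
    rw [h1]
    refine (hu _ _).trans ?_
    rw [norm_neg]
    exact max_le le_rfl h.le
  · have h1 : y = z + (y - z) := by ring
    by_contra hlt
    rw [not_le] at hlt
    have h2 : ‖y‖ ≤ max ‖z‖ ‖y - z‖ := by
      conv_lhs => rw [h1]
      exact hu _ _
    rcases le_max_iff.mp h2 with h3 | h3
    · exact absurd h3 (not_le.mpr hlt)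
    · exact absurd h3 (not_le.mpr h)

/-- every nonzero element of `ℚ_q(σ K)` has the norm of an element of `σ Kˣ`. -/
theorem exists_norm_eq_of_mem (σ : K →+* PadicAlgCl q) {y : PadicAlgCl q}
    (hy : y ∈ IntermediateField.adjoin ℚ_[q] (Set.range σ)) (hy0 : y ≠ 0) :
    ∃ x : Kˣ, ‖σ (x : K)‖ = ‖y‖ := by
  obtain ⟨x, hx⟩ := exists_norm_sub_lt_of_mem σ hy (norm_pos_iff.mpr hy0)
  have h := norm_eq_of_norm_sub_lt hx
  have hx0 : x ≠ 0 := by
    rintro rfl
    rw [map_zero, norm_zero] at h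
    exact hy0 (norm_eq_zero.mp h.symm)
  exact ⟨Units.mk0 x hx0, h⟩

end Generic

section PlaceData

variable {K : Type*} [Field K] [NumberField K] (D : PlaceData K)

/-- **density** of `σ_v K` in `K_v = D.locField v` (the `hdense` binder of
`LocBridge57/Hensel`). -/
theorem exists_norm_sub_lt (v : HeightOneSpectrum (𝓞 K)) (z : D.locField v) (ε : ℝ)
    (hε : 0 < ε) : ∃ x : K, ‖(z : PadicAlgCl (D.ℓ v)) - D.σ v x‖ < ε :=
  exists_norm_sub_lt_of_mem (D.σ v) z.2 hε

/-- the values of `σ_v` lie in `K_v` (the `hjE` binder of `LocBridge57/Hensel`). -/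
theorem σ_mem (v : HeightOneSpectrum (𝓞 K)) (x : K) : D.σ v x ∈ D.locField v :=
  IntermediateField.subset_adjoin _ _ ⟨x, rfl⟩

/-- every unit of `K_v` has the norm of some `σ_v x`, `x : Kˣ`. -/
theorem exists_norm_eq (v : HeightOneSpectrum (𝓞 K)) (z : (D.locField v)ˣ) :
    ∃ x : Kˣ, ‖D.σ v (x : K)‖ = ‖((z : D.locField v) : PadicAlgCl (D.ℓ v))‖ := by
  refine exists_norm_eq_of_mem (D.σ v) (z : D.locField v).2 ?_
  intro h
  exact z.ne_zero (Subtype.ext h)

/-- for every local unit `z` at `v` there is `x : Kˣ` with `z * ι_v x` of norm one. -/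
theorem exists_mul_mem_unitBall (v : HeightOneSpectrum (𝓞 K)) (z : (D.locField v)ˣ) :
    ∃ x : Kˣ, z * ιf D v x ∈ unitBall D v := by
  obtain ⟨x, hx⟩ := exists_norm_eq D v z
  refine ⟨x⁻¹, ?_⟩
  rw [mem_unitBall_iff, Units.val_mul, MulMemClass.coe_mul, norm_mul, ιf_coe,
    Units.val_inv_eq_inv_val, map_inv₀, norm_inv, hx]
  have h0 : ‖((z : D.locField v) : PadicAlgCl (D.ℓ v))‖ ≠ 0 := by
    rw [norm_ne_zero_iff]
    intro h
    exact z.ne_zero (Subtype.ext h)
  exact mul_inv_cancel₀ h0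

end PlaceData

end Fermat.Agent.S55.SecondInst30.Dense
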