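/-
S55 / 32c-SECOND-INEQ-INST, bridge B, step (B3) (helper30): the hypothesis `FI` of the abstract
second inequality `SecondIneq74.Core` on the place model, FROM THE FIRST INEQUALITY (31-OUT) at the
Kummer levels `kummerLevel p L x`, GIVEN the per-level norm-residue map `Ψ` of helper53's
`exists_psi` (taken here as a hypothesis `hpsi`, literally the `∀`-closure of its statement).

* `FI_of_first_hom'`            : `Glue.FI_of_first_hom` with the `(P, hx)`-hypothesis of `FI`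
                                   passed to `hfirst`;
* `exists_ne_zero_H0_of_q_eq`   : a Herbrand pair with `q = p` prime has `H0 ≠ 0`;
* `FI_of_firstIneq_of_psi`      : the wiring.
-/
import Mathlib
import Fermat.Agent.S55.SecondIneq74.Glue
import Fermat.Agent.S55.SecondIneq74.LevelFI
import Fermat.Agent.S55.SecondIneq74.LayerOfRoot
import Fermat.Agent.S55.SecondInst53.Assembly
import Fermat.Agent.S55.Adapt77.HcycGlue
import Fermat.Agent.S55.IdeleVal44.Inst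

set_option autoImplicit false
set_option linter.unusedSectionVars false
set_option linter.unusedVariables false
set_option linter.style.haveILetI false

open IsDedekindDomain NumberField

namespace Fermat.Agent.S55.SecondInst30.FIStep

open Fermat.Agent.S55.Idele73.Basic Fermat.Agent.S55.SecondIneq74
  Fermat.Agent.S55.SecondInst53.PlaceModel Fermat.Agent.S55.SecondInst53.Assembly
  Fermat.Agent.S55.Herbrand54 Fermat.Agent.S55.Adapt77.HcycGlue Fermat.Agent.S55.IdeleVal44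

section Abstract

variable {K : Type*} [Field K] {V : Type*} (A : V → Type*) [∀ v, CommGroup (A v)]
  (ι : ∀ v, Kˣ →* A v) (U : ∀ v, Subgroup (A v)) (p : ℕ)

/-- `Glue.FI_of_first_hom`, with the hypothesis of `FI` on `(x, P)` available in `hfirst`. -/
theorem FI_of_first_hom' (hfin : ∀ x : Kˣ, {v | ι v x ∉ U v}.Finite) (tame : Set V)
    (hfirst : ∀ (x : Kˣ) (P : Finset V),
      (∀ v, v ∉ P → ι v x ∈ Pw A p v ∨ (v ∈ tame ∧ ι v x ∈ U v)) → x ∉ PK (K := K) p →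
      ∃ (Q : Type) (_ : Group Q) (Ψ : idele A U →* Q),
      (∃ y, Ψ y ≠ 1) ∧ (∀ c : Kˣ, Ψ ⟨diag A ι c, hfin c⟩ = 1) ∧
      ∀ y : idele A U,
        (∀ v, y.1 v ∈ Pw A p v ∨ ι v x ∈ Pw A p v ∨ (v ∈ tame ∧ ι v x ∈ U v ∧ y.1 v ∈ U v)) →
        Ψ y = 1) :
    FI A ι U p tame := by
  intro x P hx hgen
  by_contra hxK
  obtain ⟨Q, _, Ψ, ⟨y₀, hy₀⟩, hdiag, hloc⟩ := hfirst x P hx hxK
  apply hy₀
  obtain ⟨c, hcP, hcU⟩ := hgen y₀.1 y₀.2
  have hyc : Ψ (y₀ * ⟨diag A ι c, hfin c⟩) = 1 := by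
    refine hloc _ ?_
    intro v
    show y₀.1 v * ι v c ∈ Pw A p v ∨ ι v x ∈ Pw A p v ∨
      (v ∈ tame ∧ ι v x ∈ U v ∧ y₀.1 v * ι v c ∈ U v)
    by_cases hvP : v ∈ P
    · exact Or.inl (hcP v hvP)
    · by_cases hxv : ι v x ∈ Pw A p v
      · exact Or.inr (Or.inl hxv)
      · rcases hx v hvP with h | ⟨ht, hu⟩
        · exact absurd h hxv
        · exact Or.inr (Or.inr ⟨ht, hu, hcU v hvP hxv⟩)
  rw [map_mul, hdiag c, mul_one] at hyc
  exact hyc

end Abstract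

/-- a Herbrand pair with defined quotient `q = p ≥ 2` has a nonzero class in `H0`. -/
theorem exists_ne_zero_H0_of_q_eq {M : Type*} [AddCommGroup M] (P : Pair M) {p : ℕ} (hp : 2 ≤ p)
    (hdef : P.IsDefined) (hq : P.q = p) : ∃ z : P.H0, z ≠ 0 := by
  obtain ⟨h0, h1⟩ := hdef
  by_contra hcon
  push Not at hcon
  have hsub : Subsingleton P.H0 := ⟨fun a b => (hcon a).trans (hcon b).symm⟩
  have hc0 : Nat.card P.H0 = 1 := Nat.card_unique
  have hc1 : 0 < Nat.card P.H1 := Nat.card_pos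
  have hq' : (1 : ℚ) / (Nat.card P.H1 : ℚ) = p := by
    rw [← hq, Pair.q, hc0, Nat.cast_one]
  have hc1' : (0 : ℚ) < (Nat.card P.H1 : ℚ) := by exact_mod_cast hc1
  have h2 : (1 : ℚ) = p * (Nat.card P.H1 : ℚ) := by
    rw [← hq']; field_simp
  have h3 : (1 : ℕ) = p * Nat.card P.H1 := by exact_mod_cast h2
  have h4 : p ∣ 1 := ⟨_, h3⟩
  have := Nat.le_of_dvd Nat.one_pos h4
  omega

variable {K : IntermediateField ℚ Qbar} [FiniteDimensional ℚ K] (D : PlaceData ↥K)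

/-- the Kummer level of `x` for the hypothesis `(x, P)` of `FI`: an `S'`-level `L' ⊇ L`, `S' ⊇ S`,
containing a `p`-th root of `x`. -/
theorem exists_level {p : ℕ} [Fact p.Prime] (S : Finset Nat.Primes)
    (hpS : (⟨p, Fact.out⟩ : Nat.Primes) ∈ S) (L : IntermediateField ℚ Qbar) [Normal ℚ L]
    (hKL : K ≤ L) (hL : L.IsUnramifiedOutside S) (x : (↥K)ˣ) (P : Finset (V ↥K))
    (hx : ∀ v, v ∉ P → ι D v x ∈ Pw (A D) p v ∨ (v ∈ tame (K := ↥K) p ∧ ι D v x ∈ U D v)) :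
    ∃ (S' : Finset Nat.Primes) (L' : IntermediateField ℚ Qbar), S ⊆ S' ∧ L ≤ L' ∧ Normal ℚ L' ∧
      L'.IsUnramifiedOutside S' ∧ ∃ β : Qbar, β ∈ L' ∧ β ^ p = ((x : ↥K) : Qbar) := by
  classical
  have hp : p.Prime := Fact.out
  have hSS' : S ⊆ S ∪ P.biUnion (Sum.elim
    (fun v : HeightOneSpectrum (𝓞 ↥K) => {(⟨D.ℓ v, (D.prime v).out⟩ : Nat.Primes)})
    (fun _ => ∅)) := Finset.subset_union_left
  have hP : ∀ v : HeightOneSpectrum (𝓞 ↥K), Sum.inl v ∈ P →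
      (⟨D.ℓ v, (D.prime v).out⟩ : Nat.Primes) ∈ S ∪ P.biUnion (Sum.elim
        (fun v : HeightOneSpectrum (𝓞 ↥K) => {(⟨D.ℓ v, (D.prime v).out⟩ : Nat.Primes)})
        (fun _ => ∅)) := by
    intro v hv
    refine Finset.mem_union_right _ (Finset.mem_biUnion.mpr ⟨Sum.inl v, hv, ?_⟩)
    exact Finset.mem_singleton_self _
  have hpS' : ExtCitation.pPrime p ∈ S ∪ P.biUnion (Sum.elim
    (fun v : HeightOneSpectrum (𝓞 ↥K) => {(⟨D.ℓ v, (D.prime v).out⟩ : Nat.Primes)})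
    (fun _ => ∅)) := hSS' hpS
  obtain ⟨hLL', hnorm, hunrL', hroot⟩ :=
    LevelFI.exists_level_of_FI_hyp hpS' K L hKL (hL.mono hSS') D x P hx hP
  obtain ⟨β, hβ⟩ : ∃ β : Qbar, β ^ p = ((x : ↥K) : Qbar) :=
    IsAlgClosed.exists_pow_nat_eq _ hp.pos
  exact ⟨_, _, hSS', hLL', hnorm, hunrL', β, hroot β hβ, hβ⟩

/-- the Kummer layer of a root `β` of `X ^ p - x`, `x ∉ Kˣᵖ`, at a level `L' ∋ β`. -/
theorem exists_layer {p : ℕ} [Fact p.Prime] {ζ : ↥K} (hζ : IsPrimitiveRoot ζ p)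
    (L' : IntermediateField ℚ Qbar) [Normal ℚ L'] [FiniteDimensional ℚ L'] (hKL' : K ≤ L')
    (x : (↥K)ˣ) (hxK : x ∉ PK (K := ↥K) p) (β : ↥L') (hβ : β ^ p = incl L' K hKL' (x : ↥K)) :
    β ≠ 0 ∧ ∃ N : Subgroup ↥(fixK L' K hKL'), N.Normal ∧ Nat.card (↥(fixK L' K hKL') ⧸ N) = p ∧
      ∀ h : ↥(fixK L' K hKL'), (h : GalL L') β = β ↔ h ∈ N := by
  have hp : p.Prime := Fact.out
  have hβ0 : β ≠ 0 := by
    intro h0
    rw [h0, zero_pow hp.ne_zero] at hβ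
    exact x.ne_zero ((incl L' K hKL').injective (hβ.symm.trans (map_zero _).symm))
  have hx' : ¬ ∃ y : ↥K, y ^ p = (x : ↥K) := by
    rintro ⟨y, hy⟩
    apply hxK
    have hy0 : y ≠ 0 := by
      rintro rfl
      rw [zero_pow hp.ne_zero] at hy
      exact x.ne_zero hy.symm
    exact ⟨Units.mk0 y hy0, Units.ext hy⟩
  exact ⟨hβ0, LayerOfRoot.kummerStab hKL' β, LayerOfRoot.kummerStab_normal hKL' hζ hβ0 hβ,
    LayerOfRoot.card_quot_kummerStab hKL' hζ hβ0 hβ hx',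
    fun h => (LayerOfRoot.mem_kummerStab hKL').symm⟩

/-- **(B3)**: `FI` on the place model from the first inequality at all bigger levels, given the
norm-residue maps `Ψ` of all Kummer layers (`hpsi` = the statement of helper53's `exists_psi`). -/
theorem FI_of_firstIneq_of_psi {p : ℕ} [Fact p.Prime] {ζ : ↥K} (hζ : IsPrimitiveRoot ζ p)
    (S : Finset Nat.Primes) (hpS : (⟨p, Fact.out⟩ : Nat.Primes) ∈ S)
    (L : IntermediateField ℚ Qbar) [Normal ℚ L] [FiniteDimensional ℚ L] (hKL : K ≤ L)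
    (hL : L.IsUnramifiedOutside S)
    (h31 : ∀ (S' : Finset Nat.Primes), S ⊆ S' → ∀ (L' : IntermediateField ℚ Qbar) [Normal ℚ L']
      [FiniteDimensional ℚ L'], L ≤ L' → ∀ h' : UnrOutside L' S',
      FirstIneqOut (CS h') ⊤ p)
    (hpsi : ∀ (L' : IntermediateField ℚ Qbar) [Normal ℚ L'] [FiniteDimensional ℚ L']
      (hKL' : K ≤ L') {S' : Finset Nat.Primes} (hS' : S'.Nonempty) (hunr : UnrOutside L' S')
      (N : Subgroup ↥(fixK L' K hKL')) [N.Normal] [Fintype (↥(fixK L' K hKL') ⧸ N)]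
      (hcard : Fintype.card (↥(fixK L' K hKL') ⧸ N) = p) (g : ↥(fixK L' K hKL') ⧸ N)
      (hg : ∀ x, x ∈ Subgroup.zpowers g) {α ζ' : ↥L'} (hα0 : α ≠ 0)
      (hstab : ∀ h : ↥(fixK L' K hKL'), (h : GalL L') α = α ↔ h ∈ N)
      (hζ' : IsPrimitiveRoot ζ' p) (hζH : ∀ h : ↥(fixK L' K hKL'), (h : GalL L') ζ' = ζ')
      (a : (↥K)ˣ) (ha : incl L' K hKL' (a : ↥K) = α ^ p),
      ∃ Ψ : idele (A D) (U D) →*
          Multiplicative (layerPair (CS hunr) (fixK L' K hKL') N g).H0,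
        Function.Surjective Ψ ∧ (∀ c : (↥K)ˣ, Ψ ⟨diag (A D) (ι D) c, hfin D c⟩ = 1) ∧
        ∀ y : idele (A D) (U D),
          (∀ v, y.1 v ∈ Pw (A D) p v ∨ ι D v a ∈ Pw (A D) p v ∨
            (v ∈ tame (K := ↥K) p ∧ ι D v a ∈ U D v ∧ y.1 v ∈ U D v)) → Ψ y = 1) :
    FI (A D) (ι D) (U D) p (tame p) := by
  have hp : p.Prime := Fact.out
  refine FI_of_first_hom' (A D) (ι D) (U D) p (hfin D) (tame p) ?_
  intro x P hx hxK
  obtain ⟨S', L', hSS', hLL', hnorm, hunrL', β, hβL', hβ⟩ :=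
    exists_level D S hpS L hKL hL x P hx
  haveI : Normal ℚ L' := hnorm
  haveI : FiniteDimensional ℚ L' := hunrL'.1
  have hKL' : K ≤ L' := hKL.trans hLL'
  have hβ' : (⟨β, hβL'⟩ : ↥L') ^ p = incl L' K hKL' (x : ↥K) := Subtype.ext hβ
  obtain ⟨hβ0, N, hNn, hcardN, hstab⟩ := exists_layer hζ L' hKL' x hxK ⟨β, hβL'⟩ hβ'
  haveI : N.Normal := hNn
  haveI : Finite (↥(fixK L' K hKL') ⧸ N) :=
    Nat.finite_of_card_ne_zero (by rw [hcardN]; exact hp.ne_zero)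
  letI : Fintype (↥(fixK L' K hKL') ⧸ N) := Fintype.ofFinite _
  have hcard : Fintype.card (↥(fixK L' K hKL') ⧸ N) = p := by
    rw [← Nat.card_eq_fintype_card, hcardN]
  haveI : IsCyclic (↥(fixK L' K hKL') ⧸ N) := isCyclic_of_prime_card hcardN
  obtain ⟨g, hg⟩ := IsCyclic.exists_generator (α := ↥(fixK L' K hKL') ⧸ N)
  have hunr : UnrOutside L' S' := unrOutside_of_level L' hunrL'
  have hS'ne : S'.Nonempty := ⟨_, hSS' hpS⟩
  obtain ⟨Ψ, hΨsurj, hΨdiag, hΨloc⟩ := hpsi L' hKL' hS'ne hunr N hcard g hg hβ0 hstab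
    (hζ.map_of_injective (incl L' K hKL').injective) (fun h => h.2 ζ) x hβ'.symm
  obtain ⟨hdef, hq⟩ := h31 S' hSS' L' hLL' hunr (fixK L' K hKL') le_top N hcardN g hg
  obtain ⟨z, hz⟩ := exists_ne_zero_H0_of_q_eq _ hp.two_le hdef hq
  obtain ⟨y, hy⟩ := hΨsurj (Multiplicative.ofAdd z)
  refine ⟨_, inferInstance, Ψ, ⟨y, ?_⟩, hΨdiag, hΨloc⟩
  rw [hy]
  intro h
  exact hz (Multiplicative.ofAdd.injective h)

end Fermat.Agent.S55.SecondInst30.FIStep
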