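/-
S55 / 32c-SECOND-INEQ-INST, bridge B (helper30): the KUMMER GENERATOR OF A LAYER (Mathlib only).

`E/F` a field extension, `H` a finite subgroup of `Aut_F(E)`, `N ⊴ H` of prime index `p`, `ζ ∈ E` a
primitive `p`-th root of unity fixed by `H`.  Then there are a character `χ : H →* Eˣ` with kernel
`N` and values fixed by `H`, and an eigenvector `α ≠ 0`, `h α = χ h * α` (Lagrange resolvent /
Hilbert 90 for characters via Dedekind independence).  Consequently `a := α ^ p` lies in the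
fixed field `K = E^H`, is not a `p`-th power in `K`, and `N` is the stabiliser of `α` in `H`
(`E^N = K(α) = K(a^{1/p})`).  With `E := L`, `F := ℚ`, `Aut_F(E) = GalL L` this is the Kummer
generator of the layer `(H ⧸ N, C^N)` needed by the output (B4) of 32c.
-/
import Mathlib

set_option autoImplicit false
set_option linter.style.haveILetI false

namespace Fermat.Agent.S55.SecondInst30.LayerKummer

variable {F E : Type*} [Field F] [Field E] [Algebra F E]

/-- a `p`-th root of unity of `E` is fixed by every automorphism fixing a primitive one. -/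
theorem map_eq_of_pow_eq_one {p : ℕ} [hp : Fact p.Prime] {ζ : E} (hζ : IsPrimitiveRoot ζ p)
    (σ : E ≃ₐ[F] E) (hσ : σ ζ = ζ) {ξ : E} (hξ : ξ ^ p = 1) : σ ξ = ξ := by
  obtain ⟨i, -, rfl⟩ := hζ.eq_pow_of_pow_eq_one hξ
  rw [map_pow, hσ]

/-- **Hilbert 90 for characters of a finite group of automorphisms** (Dedekind independence):
a character `χ : H →* Eˣ` whose values are fixed by `H` has an eigenvector. -/
theorem exists_eigenvector (H : Subgroup (E ≃ₐ[F] E)) [Finite H] (χ : H →* Eˣ)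
    (hχ : ∀ g h : H, (g : E ≃ₐ[F] E) ((χ h : Eˣ) : E) = ((χ h : Eˣ) : E)) :
    ∃ α : E, α ≠ 0 ∧ ∀ h : H, (h : E ≃ₐ[F] E) α = ((χ h : Eˣ) : E) * α := by
  classical
  haveI : Fintype H := Fintype.ofFinite H
  let c : H → E := fun τ => (((χ τ)⁻¹ : Eˣ) : E)
  have hli : LinearIndependent E
      (fun τ : H => (((τ : E ≃ₐ[F] E) : E →ₐ[F] E)).toLinearMap) := by
    have h1 := linearIndependent_toLinearMap F E E
    exact h1.comp (fun τ : H => (((τ : E ≃ₐ[F] E)) : E →ₐ[F] E))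
      (fun τ τ' h => Subtype.ext (AlgEquiv.coe_toAlgHom_injective h))
  have hne : (∑ τ : H, c τ • (((τ : E ≃ₐ[F] E) : E →ₐ[F] E)).toLinearMap) ≠ 0 := by
    intro h0
    have := (Fintype.linearIndependent_iff.mp hli) c h0 1
    exact (Units.ne_zero _) this
  obtain ⟨θ, hθ⟩ : ∃ θ : E,
      (∑ τ : H, c τ • (((τ : E ≃ₐ[F] E) : E →ₐ[F] E)).toLinearMap) θ ≠ 0 := by
    by_contra hcon
    push Not at hcon
    exact hne (LinearMap.ext hcon)
  refine ⟨(∑ τ : H, c τ • (((τ : E ≃ₐ[F] E) : E →ₐ[F] E)).toLinearMap) θ, hθ, fun h => ?_⟩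
  simp only [LinearMap.sum_apply, LinearMap.smul_apply, AlgHom.toLinearMap_apply, smul_eq_mul,
    AlgEquiv.coe_toAlgHom, map_sum, map_mul, Finset.mul_sum]
  -- reindex by `τ ↦ h * τ`
  refine Fintype.sum_equiv (Equiv.mulLeft h) _ _ fun τ => ?_
  have h1 : (h : E ≃ₐ[F] E) (c τ) = c τ := by
    have := hχ h τ⁻¹
    simpa [c, map_inv] using this
  have h2 : c (h * τ) = c h * c τ := by
    simp only [c, map_mul, mul_inv_rev, Units.val_mul]
    rw [mul_comm]
  have h3 : ((χ h : Eˣ) : E) * c h = 1 := by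
    simp [c]
  show (h : E ≃ₐ[F] E) (c τ) * (h : E ≃ₐ[F] E) ((τ : E ≃ₐ[F] E) θ) =
    ((χ h : Eˣ) : E) * (c (h * τ) * ((h * τ : H) : E ≃ₐ[F] E) θ)
  rw [h1, h2, ← mul_assoc, ← mul_assoc, h3, one_mul]
  rfl

variable (H : Subgroup (E ≃ₐ[F] E)) [Finite H] (N : Subgroup H) [N.Normal]
  {p : ℕ} [hp : Fact p.Prime]

omit [Finite H] in
/-- a character of `H` with kernel `N` and values in `μ_p`, for `N ⊴ H` of prime index `p` and
`μ_p ⊆ E`. -/
theorem exists_character (hcard : Nat.card (H ⧸ N) = p) {ζ : E} (hζ : IsPrimitiveRoot ζ p) :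
    ∃ χ : H →* Eˣ, χ.ker = N ∧ ∀ h : H, ((χ h : Eˣ) : E) ^ p = 1 := by
  classical
  haveI : Finite (H ⧸ N) := Nat.finite_of_card_ne_zero (by rw [hcard]; exact hp.out.ne_zero)
  haveI : IsCyclic (H ⧸ N) := isCyclic_of_prime_card hcard
  letI : CommGroup (H ⧸ N) := IsCyclic.commGroup
  have hexp : Monoid.exponent (H ⧸ N) = p := by
    rw [IsCyclic.exponent_eq_card, hcard]
  haveI : HasEnoughRootsOfUnity E (Monoid.exponent (H ⧸ N)) := by
    rw [hexp]
    exact ⟨⟨ζ, hζ⟩, rootsOfUnity.isCyclic E p⟩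
  -- a nontrivial element of the quotient
  obtain ⟨a, ha⟩ : ∃ a : H ⧸ N, a ≠ 1 := by
    haveI : Nontrivial (H ⧸ N) := by
      rw [← Finite.one_lt_card_iff_nontrivial, hcard]
      exact hp.out.one_lt
    exact exists_ne 1
  obtain ⟨φ, hφ⟩ := CommGroup.exists_apply_ne_one_of_hasEnoughRootsOfUnity (H ⧸ N) E ha
  -- `φ` is injective: its kernel is a proper subgroup of a group of prime order
  have hker : φ.ker = ⊥ := by
    haveI : Fact (Nat.card (H ⧸ N)).Prime := by rw [hcard]; exact hp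
    rcases Subgroup.eq_bot_or_eq_top_of_prime_card (φ.ker) with h | h
    · exact h
    · exact absurd (MonoidHom.mem_ker.mp (h ▸ Subgroup.mem_top a)) hφ
  refine ⟨φ.comp (QuotientGroup.mk' N), ?_, fun h => ?_⟩
  · ext h
    rw [MonoidHom.mem_ker, MonoidHom.comp_apply, ← MonoidHom.mem_ker, hker, Subgroup.mem_bot,
      QuotientGroup.mk'_apply, QuotientGroup.eq_one_iff]
  · rw [MonoidHom.comp_apply, ← Units.val_pow_eq_pow_val, ← map_pow]
    have : (QuotientGroup.mk' N h) ^ p = 1 := by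
      rw [← hcard]
      exact pow_card_eq_one'
    rw [this, map_one, Units.val_one]

/-- **the Kummer generator of a layer**, eigenvector form. -/
theorem exists_kummer_eigenvector (hcard : Nat.card (H ⧸ N) = p) {ζ : E}
    (hζ : IsPrimitiveRoot ζ p) (hζH : ∀ h : H, (h : E ≃ₐ[F] E) ζ = ζ) :
    ∃ (χ : H →* Eˣ) (α : E), χ.ker = N ∧ (∀ h : H, ((χ h : Eˣ) : E) ^ p = 1) ∧ α ≠ 0 ∧
      ∀ h : H, (h : E ≃ₐ[F] E) α = ((χ h : Eˣ) : E) * α := by
  obtain ⟨χ, hker, hpow⟩ := exists_character H N hcard hζ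
  obtain ⟨α, hα0, hα⟩ := exists_eigenvector H χ
    (fun g h => map_eq_of_pow_eq_one hζ (g : E ≃ₐ[F] E) (hζH g) (hpow h))
  exact ⟨χ, α, hker, hpow, hα0, hα⟩

/-- **the Kummer generator of a layer**: `α ≠ 0` with stabiliser `N` in `H`, `α ^ p` fixed by `H`
and not a `p`-th power in the fixed field of `H`. -/
theorem exists_kummer_generator (hcard : Nat.card (H ⧸ N) = p) {ζ : E}
    (hζ : IsPrimitiveRoot ζ p) (hζH : ∀ h : H, (h : E ≃ₐ[F] E) ζ = ζ) :
    ∃ α : E, α ≠ 0 ∧ (∀ h : H, (h : E ≃ₐ[F] E) α = α ↔ h ∈ N) ∧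
      (∀ h : H, (h : E ≃ₐ[F] E) (α ^ p) = α ^ p) ∧
      ∀ β : E, (∀ h : H, (h : E ≃ₐ[F] E) β = β) → β ^ p ≠ α ^ p := by
  obtain ⟨χ, α, hker, hpow, hα0, hα⟩ := exists_kummer_eigenvector H N hcard hζ hζH
  have hstab : ∀ h : H, (h : E ≃ₐ[F] E) α = α ↔ h ∈ N := by
    intro h
    rw [← hker, MonoidHom.mem_ker, hα h]
    constructor
    · intro h1
      have h2 : ((χ h : Eˣ) : E) = 1 := by
        have := mul_right_cancel₀ hα0 (h1.trans (one_mul α).symm)
        exact this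
      exact Units.ext h2
    · intro h1
      rw [h1, Units.val_one, one_mul]
  refine ⟨α, hα0, hstab, fun h => ?_, fun β hβ hβα => ?_⟩
  · rw [map_pow, hα h, mul_pow, hpow h, one_mul]
  · -- `α = ξ β` with `ξ ∈ μ_p`, hence `α` is fixed by `H`, hence `N = H`
    have hβ0 : β ≠ 0 := by
      rintro rfl
      rw [zero_pow hp.out.ne_zero] at hβα
      exact hα0 (pow_eq_zero_iff hp.out.ne_zero |>.mp hβα.symm)
    have hξ : (α / β) ^ p = 1 := by
      rw [div_pow, hβα, div_self (pow_ne_zero _ hα0)]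
    have hfix : ∀ h : H, (h : E ≃ₐ[F] E) α = α := by
      intro h
      have h1 : α = (α / β) * β := by field_simp
      have h2 : (h : E ≃ₐ[F] E) (α / β) = α / β :=
        map_eq_of_pow_eq_one hζ (h : E ≃ₐ[F] E) (hζH h) hξ
      calc (h : E ≃ₐ[F] E) α = (h : E ≃ₐ[F] E) ((α / β) * β) := by rw [← h1]
        _ = (α / β) * β := by rw [map_mul, h2, hβ h]
        _ = α := h1.symm
    have hN : N = ⊤ := by
      rw [eq_top_iff]
      intro h _
      exact (hstab h).mp (hfix h)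
    have hone : Nat.card (H ⧸ N) = 1 := by
      rw [hN]
      exact Nat.card_eq_one_iff_unique.mpr
        ⟨QuotientGroup.subsingleton_quotient_top, ⟨1⟩⟩
    rw [hcard] at hone
    exact hp.out.one_lt.ne' hone

end Fermat.Agent.S55.SecondInst30.LayerKummer
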