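/-
S55 / 32c-SECOND-INEQ-INST, bridge B, output end (helper30): EVERY subgroup `H ≤ GalL L` is the
`fixK` of its fixed field, and the KUMMER DATA of a layer `N ⊴ H` in the vocabulary of helper53's
`SecondInst53.Assembly` (`K : IntermediateField ℚ Qbar`, `hKL : K ≤ L`, `fixK L K hKL`, `incl`).

* `Kof L H : IntermediateField ℚ Qbar` := the fixed field of `H`, inside `ℚ̄`; `Kof_le : Kof L H ≤ L`;
* `exists_incl_eq`  : the `H`-fixed elements of `L` are the elements of `Kof L H`;
* `fixK_Kof`        : `fixK L (Kof L H) (Kof_le L H) = H` (Galois correspondence);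
* `exists_kummer_data` : for `N ⊴ H` of prime index `p` and `ζ_p ∈ L^H`: `ζ' ∈ K` primitive,
  `a ∈ Kˣ ∖ Kˣᵖ`, `α ∈ L` with `α ^ p = a`, `Stab_H(α) = N` — the inputs `a`, `ha` of
  `SecondInst30.Main3.second_inequality_Kside` and `hY`, `hN`, `hN'` of `LocUnr89.TamePhi`.
-/
import Mathlib
import Fermat.Agent.S55.SecondInst53.Assembly
import Fermat.Agent.S55.SecondInst30.LayerKummer
import Fermat.Agent.S55.SecondIneq74.Core

set_option autoImplicit false

namespace Fermat.Agent.S55.SecondInst30.FixK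

open Fermat.Agent.S55.Idele73.Basic Fermat.Agent.S55.SecondInst53.Assembly
  Fermat.Agent.S55.SecondIneq74

variable (L : IntermediateField ℚ Qbar) [Normal ℚ L] (H : Subgroup (GalL L))

/-- the fixed field of `H ≤ Gal(L/ℚ)`, as a subfield of `ℚ̄`. -/
noncomputable def Kof : IntermediateField ℚ Qbar := IntermediateField.lift (IntermediateField.fixedField H)

omit [Normal ℚ L] in
theorem Kof_le : Kof L H ≤ L := IntermediateField.lift_le _

omit [Normal ℚ L] in
theorem coe_mem_Kof_iff (y : L) : (y : Qbar) ∈ Kof L H ↔ ∀ h : H, (h : GalL L) y = y := by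
  rw [Kof, IntermediateField.mem_lift]
  refine (IntermediateField.mem_fixedField_iff _ y).trans ?_
  constructor
  · intro h s
    exact h (s : GalL L) s.2
  · intro h s hs
    exact h ⟨s, hs⟩

instance finiteDimensional_Kof [FiniteDimensional ℚ L] : FiniteDimensional ℚ (Kof L H) := by
  have : FiniteDimensional ℚ (L : IntermediateField ℚ Qbar) := ‹_›
  exact FiniteDimensional.of_injective
    (IntermediateField.inclusion (Kof_le L H)).toLinearMap
    (IntermediateField.inclusion (Kof_le L H)).injective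

/-- the elements of `Kof L H` are fixed by `H`. -/
theorem apply_incl (h : H) (x : Kof L H) :
    (h : GalL L) (incl L (Kof L H) (Kof_le L H) x) = incl L (Kof L H) (Kof_le L H) x := by
  have hx : ((incl L (Kof L H) (Kof_le L H) x : L) : Qbar) ∈ Kof L H := x.2
  exact (coe_mem_Kof_iff L H _).mp hx h

/-- the `H`-fixed elements of `L` come from `Kof L H`. -/
theorem exists_incl_eq (y : L) (hy : ∀ h : H, (h : GalL L) y = y) :
    ∃ x : Kof L H, incl L (Kof L H) (Kof_le L H) x = y :=
  ⟨⟨(y : Qbar), (coe_mem_Kof_iff L H y).mpr hy⟩, Subtype.ext rfl⟩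

/-- **Galois correspondence**: `H` is the `fixK` of its fixed field. -/
theorem fixK_Kof [FiniteDimensional ℚ L] : fixK L (Kof L H) (Kof_le L H) = H := by
  conv_rhs => rw [← IntermediateField.fixingSubgroup_fixedField H]
  ext s
  rw [mem_fixK, IntermediateField.mem_fixingSubgroup_iff]
  constructor
  · intro h y hy
    have hy' : ∀ t : H, (t : GalL L) y = y := fun t =>
      (IntermediateField.mem_fixedField_iff _ y).mp hy t t.2
    obtain ⟨x, rfl⟩ := exists_incl_eq L H y hy'
    exact h x
  · intro h x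
    apply h
    rw [IntermediateField.mem_fixedField_iff]
    intro t ht
    exact apply_incl L H ⟨t, ht⟩ x

omit [Normal ℚ L] in
/-- `incl` is injective. -/
theorem incl_injective : Function.Injective (incl L (Kof L H) (Kof_le L H)) :=
  (incl L (Kof L H) (Kof_le L H)).injective

/-- **the Kummer data of a layer** in `SecondInst53.Assembly` vocabulary. -/
theorem exists_kummer_data [FiniteDimensional ℚ L] (N : Subgroup H) [N.Normal] {p : ℕ}
    [hp : Fact p.Prime] (hcard : Nat.card (H ⧸ N) = p) {ζ : L} (hζ : IsPrimitiveRoot ζ p)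
    (hζH : ∀ h : H, (h : GalL L) ζ = ζ) :
    ∃ (ζ' : Kof L H) (a : (Kof L H)ˣ) (α : L),
      IsPrimitiveRoot ζ' p ∧ incl L (Kof L H) (Kof_le L H) ζ' = ζ ∧
      α ≠ 0 ∧ incl L (Kof L H) (Kof_le L H) (a : Kof L H) = α ^ p ∧
      (∀ h : H, (h : GalL L) α = α ↔ h ∈ N) ∧
      a ∉ PK (K := Kof L H) p := by
  have : Finite (GalL L) := inferInstance
  have : Finite H := inferInstance
  obtain ⟨α, hα0, hstab, hfix, hnp⟩ :=
    LayerKummer.exists_kummer_generator (F := ℚ) (E := L) H N hcard hζ hζH
  obtain ⟨ζ', hζ'⟩ := exists_incl_eq L H ζ hζH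
  obtain ⟨a₀, ha₀⟩ := exists_incl_eq L H (α ^ p) hfix
  have ha₀0 : a₀ ≠ 0 := by
    rintro rfl
    rw [map_zero] at ha₀
    exact hα0 (pow_eq_zero_iff hp.out.ne_zero |>.mp ha₀.symm)
  refine ⟨ζ', Units.mk0 a₀ ha₀0, α, ?_, hζ', hα0, ha₀, hstab, ?_⟩
  · have : IsPrimitiveRoot (incl L (Kof L H) (Kof_le L H) ζ') p := by rw [hζ']; exact hζ
    exact IsPrimitiveRoot.of_map_of_injective this (incl_injective L H)
  · rintro ⟨c, hc⟩
    have hc' : (c : Kof L H) ^ p = a₀ := by
      have := congrArg (fun u : (Kof L H)ˣ => (u : Kof L H)) hc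
      simpa using this
    apply hnp (incl L (Kof L H) (Kof_le L H) (c : Kof L H)) (fun h => apply_incl L H h _)
    rw [← map_pow, hc', ha₀]

end Fermat.Agent.S55.SecondInst30.FixK
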