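/-
S55 / 32c-SECOND-INEQ-INST, part A3 (helper30): the TAME hypotheses (H4) `htame`, `hroot` of
`SecondIneq74.relIndex_sup_dvd` on helper53's place model `SecondInst53.PlaceModel`.

* `hroot D p hp0` : `z ^ p ∈ U v → z ∈ U v` (every place; norms);
* `htame D hζ`    : `(Pw v).relIndex (U v) = p` at every finite place `v ∤ p`, for `μ_p ⊆ K`:
  `U v = O_vˣ`, `[O_vˣ : O_vˣᵖ] = #μ_p(O_v) · #(O_v / p) = p · 1` (`LocPow39.index_range_pow`,
  `LocPowLF39.card_quot_of_ne`).
-/
import Mathlib
import Fermat.Agent.S55.SecondInst53.PlaceModel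
import Fermat.Agent.S55.LocDegSum39

set_option autoImplicit false

namespace Fermat.Agent.S55.SecondInst30.Tame

open IsDedekindDomain NumberField Fermat.Agent.S55.LocField17
  Fermat.Agent.S55.SecondInst53.PlaceModel Fermat.Agent.S55

variable {K : Type*} [Field K] [NumberField K] (D : PlaceData K)

/-- the local fields of the place model are finite over `ℚ_ℓ`. -/
instance finiteDimensional_locField (v : HeightOneSpectrum (𝓞 K)) :
    FiniteDimensional ℚ_[D.ℓ v] (D.locField v) :=
  LocDegSum39.finiteDimensional_locField (D.ℓ v) (D.σ v)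

/-- the norm-one units of `K_v` are the units of the ring of integers. -/
theorem unitBall_eq_unitsO (v : HeightOneSpectrum (𝓞 K)) :
    unitBall D v = LocPow39.unitsO (O := intRing (D.locField v)) (D.locField v) := by
  ext u
  rw [mem_unitBall_iff]
  constructor
  · intro h
    have hmem : (u : D.locField v) ∈ intRing (D.locField v) := mem_intRing.mpr h.le
    have hu : IsUnit (⟨(u : D.locField v), hmem⟩ : intRing (D.locField v)) :=
      (isUnit_iff _).mpr h
    refine ⟨hu.unit, ?_⟩
    apply Units.ext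
    rfl
  · rintro ⟨w, rfl⟩
    exact (isUnit_iff (w : intRing (D.locField v))).mp w.isUnit

/-- **(hroot)** at a finite place. -/
theorem unitBall_of_pow_mem (v : HeightOneSpectrum (𝓞 K)) {p : ℕ} (hp0 : p ≠ 0)
    (z : (D.locField v)ˣ) (hz : z ^ p ∈ unitBall D v) : z ∈ unitBall D v := by
  rw [mem_unitBall_iff] at hz ⊢
  rw [Units.val_pow_eq_pow_val, SubmonoidClass.coe_pow, norm_pow] at hz
  exact (pow_eq_one_iff_of_nonneg (norm_nonneg _) hp0).mp hz

/-- **(hroot)** of `SecondIneq74.relIndex_sup_dvd` on the place model (at every place). -/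
theorem hroot {p : ℕ} (hp0 : p ≠ 0) :
    ∀ v : V K, ∀ z : A D v, z ^ p ∈ U D v → z ∈ U D v := by
  rintro (v | w) z hz
  · exact unitBall_of_pow_mem D v hp0 z hz
  · exact Subgroup.mem_top _

/-- the residue characteristic of a place not above `p` is not `p`. -/
theorem ne_of_notMem {p : ℕ} {v : HeightOneSpectrum (𝓞 K)} (hv : ((p : ℕ) : 𝓞 K) ∉ v.asIdeal) :
    p ≠ D.ℓ v := by
  rintro rfl
  exact hv (D.natCast_mem v)

/-- the `p`-th powers of `K_vˣ` lying in the unit ball are the `p`-th powers of the unit ball. -/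
theorem range_pow_subgroupOf (v : HeightOneSpectrum (𝓞 K)) {p : ℕ} (hp0 : p ≠ 0)
    (H : Subgroup (D.locField v)ˣ) (hH : H = unitBall D v) :
    ((powMonoidHom p : (D.locField v)ˣ →* (D.locField v)ˣ).range).subgroupOf H =
      (powMonoidHom p : H →* H).range := by
  subst hH
  ext ⟨u, hu⟩
  rw [Subgroup.mem_subgroupOf]
  constructor
  · rintro ⟨c, hc⟩
    have hc' : c ^ p = u := hc
    have hcU : c ∈ unitBall D v := unitBall_of_pow_mem D v hp0 c (by rw [hc']; exact hu)
    refine ⟨⟨c, hcU⟩, ?_⟩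
    apply Subtype.ext
    exact hc'
  · rintro ⟨c, hc⟩
    refine ⟨(c : (D.locField v)ˣ), ?_⟩
    have := congrArg Subtype.val hc
    exact this

/-- **(htame)** at a finite place `v ∤ p`, in `(K_v)ˣ` vocabulary. -/
theorem relIndex_unitBall {p : ℕ} [hp : Fact p.Prime] {ζ : K} (hζ : IsPrimitiveRoot ζ p)
    (v : HeightOneSpectrum (𝓞 K)) (hv : ((p : ℕ) : 𝓞 K) ∉ v.asIdeal) :
    ((powMonoidHom p : (D.locField v)ˣ →* (D.locField v)ˣ).range).relIndex (unitBall D v) = p := by
  have : NeZero p := ⟨hp.out.ne_zero⟩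
  have hne : p ≠ D.ℓ v := ne_of_notMem D hv
  have hζ' : IsPrimitiveRoot (D.toLocField v ζ) p :=
    hζ.map_of_injective (D.toLocField v).injective
  rw [Subgroup.relIndex, unitBall_eq_unitsO D v,
    range_pow_subgroupOf D v hp.out.ne_zero
      (LocPow39.unitsO (O := intRing (D.locField v)) (D.locField v)) (unitBall_eq_unitsO D v).symm,
    LocPow39.index_range_pow_unitsO (O := intRing (D.locField v)) (D.locField v) p,
    LocPow39.index_range_pow, LocPowLF39.card_quot_of_ne (D.locField v) p hne, mul_one,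
    ← LocPow39.card_rootsOfUnity_eq (O := intRing (D.locField v)) (D.locField v) p,
    hζ'.card_rootsOfUnity]

/-- **(htame)** of `SecondIneq74.relIndex_sup_dvd` on the place model, for `μ_p ⊆ K`. -/
theorem htame {p : ℕ} [Fact p.Prime] {ζ : K} (hζ : IsPrimitiveRoot ζ p) :
    ∀ v ∈ tame (K := K) p, (SecondIneq74.Pw (A D) p v).relIndex (U D v) = p := by
  rintro _ ⟨v, rfl, hv⟩
  exact relIndex_unitBall D hζ v hv

end Fermat.Agent.S55.SecondInst30.Tame
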