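/-
S55 / 32c-SECOND-INEQ-INST, part A3 (helper30): the K-SIDE ASSEMBLY of the second inequality on
helper53's place model `SecondInst53.PlaceModel` (`D : PlaceData K`, honest local fields at all
finite places, dummy infinite places).

`SecondIneq74.relIndex_sup_dvd` / `SecondIneq74.card_dvd_of_surjective` with
* `hfin`  (helper53 `PlaceModel.hfin`),
* `hgen`  (here: class group step `SecondInst5.Prep.exists_finset_gen` + density `Dense`),
* `hunit` (helper5 `SecondInst5.Adapters.hunit` + `μ_p ⊆ K`, `p` odd ⇒ no real places),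
* `htame`, `hroot` (`SecondInst30.Tame`)
discharged.  Left as NAMED hypotheses, in the literal shape of the Core: `hprod` (H3, seats A2),
`hCL` (seat A4), `hFI` and the norm data `(Nm, hNm)` resp. `(Q, Ψ, hdiag, hBL)` (bridge B).

The set `S` is ANY finite set of places containing the dummy places, the places above `p` and a
finite set `S₀` of primes (generating the class group) which depends only on `K`.
-/
import Mathlib
import Fermat.Agent.S55.SecondInst53.PlaceModel
import Fermat.Agent.S55.SecondInst5.Adapters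
import Fermat.Agent.S55.SecondIneq74.Glue
import Fermat.Agent.S55.SecondInst30.Dense
import Fermat.Agent.S55.SecondInst30.Tame

set_option autoImplicit false

namespace Fermat.Agent.S55.SecondInst30.Main

open IsDedekindDomain NumberField Fermat.Agent.S55.LocField17
  Fermat.Agent.S55.SecondInst53.PlaceModel Fermat.Agent.S55 Fermat.Agent.S55.SecondIneq74

variable {K : Type*} [Field K] [NumberField K] (D : PlaceData K)

/-! ### (H1) `hgen` -/

/-- **(hgen)** on the place model: there is a finite set `S₀ ⊇ S₁` of primes such that for every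
finite set `S` of places containing `S₀`, every idele is a unit outside `S` up to a principal
idele. -/
theorem hgen (S₁ : Finset (HeightOneSpectrum (𝓞 K))) :
    ∃ S₀ : Finset (HeightOneSpectrum (𝓞 K)), S₁ ⊆ S₀ ∧
      ∀ S : Finset (V K), (∀ P ∈ S₀, Sum.inl P ∈ S) →
        ∀ y ∈ idele (A D) (U D), ∃ x : Kˣ, ∀ v, v ∉ S → y v * ι D v x ∈ U D v := by
  classical
  obtain ⟨S₀, hS₁, hS₀⟩ := SecondInst5.Prep.exists_finset_gen K S₁
  refine ⟨S₀, hS₁, fun S hS y hy => ?_⟩
  have hfin : {v | y v ∉ U D v}.Finite := hy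
  -- local approximations
  have hloc : ∀ P : HeightOneSpectrum (𝓞 K), ∃ x : Kˣ,
      y (Sum.inl P) * ι D (Sum.inl P) x ∈ U D (Sum.inl P) :=
    fun P => Dense.exists_mul_mem_unitBall D P (y (Sum.inl P))
  choose xloc hxloc using hloc
  let supp : Finset (HeightOneSpectrum (𝓞 K)) :=
    (hfin.toFinset).preimage Sum.inl (Sum.inl_injective.injOn)
  have hsupp : ∀ P, P ∈ supp ↔ y (Sum.inl P) ∉ U D (Sum.inl P) := by
    intro P
    simp [supp]
  let n : HeightOneSpectrum (𝓞 K) →₀ ℤ :=
    Finsupp.onFinset supp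
      (fun P => if P ∈ supp then -(WithZero.log (P.valuation K ((xloc P : Kˣ) : K))) else 0)
      (by
        intro P hP
        by_contra h
        exact hP (if_neg h))
  obtain ⟨x, hx⟩ := hS₀ S₀ (Finset.Subset.refl _) n
  refine ⟨x, ?_⟩
  rintro (P | w) hv
  · have hPS₀ : P ∉ S₀ := fun h => hv (hS P h)
    have hxP := hx P hPS₀
    by_cases hP : P ∈ supp
    · -- `x` and `xloc P` have the same valuation at `P`
      have hne : P.valuation K ((xloc P : Kˣ) : K) ≠ 0 :=
        (Valuation.ne_zero_iff _).mpr (xloc P).ne_zero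
      have hval : P.valuation K (x : K) = P.valuation K ((xloc P : Kˣ) : K) := by
        rw [hxP]
        show WithZero.exp (-(n P)) = _
        have : n P = -(WithZero.log (P.valuation K ((xloc P : Kˣ) : K))) := by
          show (if P ∈ supp then _ else _) = _
          rw [if_pos hP]
        rw [this, neg_neg, WithZero.exp_log hne]
      have hunit : ι D (Sum.inl P) (x * (xloc P)⁻¹) ∈ U D (Sum.inl P) := by
        rw [ι_inl_mem_U_iff, Units.val_mul, Units.val_inv_eq_inv_val, map_mul, map_inv₀, hval]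
        exact mul_inv_cancel₀ hne
      have hmul := (U D (Sum.inl P)).mul_mem (hxloc P) hunit
      have heq : y (Sum.inl P) * ι D (Sum.inl P) (xloc P) * ι D (Sum.inl P) (x * (xloc P)⁻¹) =
          y (Sum.inl P) * ι D (Sum.inl P) x := by
        rw [mul_assoc, ← map_mul]
        congr 2
        rw [mul_comm x, ← mul_assoc, mul_inv_cancel, one_mul]
      rwa [heq] at hmul
    · have hyU : y (Sum.inl P) ∈ U D (Sum.inl P) := by
        by_contra h
        exact hP ((hsupp P).mpr h)
      have hn : n P = 0 := by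
        show (if P ∈ supp then _ else _) = _
        rw [if_neg hP]
      have hxU : ι D (Sum.inl P) x ∈ U D (Sum.inl P) := by
        rw [ι_inl_mem_U_iff, hxP, hn, neg_zero, WithZero.exp_zero]
      exact (U D (Sum.inl P)).mul_mem hyU hxU
  · exact Subgroup.mem_top _

/-! ### (H2) `hunit` -/

/-- `μ_p ⊆ K`, `p` odd: all infinite places are complex. -/
theorem card_infinitePlace {p : ℕ} (hp2 : 2 < p) {ζ : K} (hζ : IsPrimitiveRoot ζ p) :
    Fintype.card (InfinitePlace K) = InfinitePlace.nrComplexPlaces K := by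
  rw [InfinitePlace.card_eq_nrRealPlaces_add_nrComplexPlaces,
    InfinitePlace.IsPrimitiveRoot.nrRealPlaces_eq_zero_of_two_lt hp2 hζ, zero_add]

/-- **(hunit)** on the place model. -/
theorem hunit {p : ℕ} [hp : Fact p.Prime] (hp2 : p ≠ 2) {ζ : K} (hζ : IsPrimitiveRoot ζ p)
    (S : Finset (V K)) (hS : ∀ w : InfinitePlace K, Sum.inr w ∈ S) :
    ∀ T : Finset (V K), S ⊆ T →
      ((sUnits (A D) (ι D) (U D) T).map (powMonoidHom p)).relIndex
        (sUnits (A D) (ι D) (U D) T) = p ^ T.card := by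
  have h2 : 2 < p := lt_of_le_of_ne hp.out.two_le (Ne.symm hp2)
  exact SecondInst5.Adapters.hunit (A D) (ι D) (U D) hp2 hζ (card_infinitePlace h2 hζ)
    (ι_inl_mem_U_iff D) S hS

/-! ### The assembly -/

omit [NumberField K] in
/-- the places outside a set containing the places above `p` and the dummy places are tame. -/
theorem mem_tame_of_notMem {p : ℕ} (S : Finset (V K))
    (hinf : ∀ w : InfinitePlace K, Sum.inr w ∈ S)
    (hwild : ∀ P : HeightOneSpectrum (𝓞 K), ((p : ℕ) : 𝓞 K) ∈ P.asIdeal → Sum.inl P ∈ S) :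
    ∀ v, v ∉ S → v ∈ tame (K := K) p := by
  rintro (P | w) hv
  · exact (inl_mem_tame_iff p P).mpr fun h => hv (hwild P h)
  · exact absurd (hinf w) hv

/-- **Second inequality, K-side, subgroup form**: `relIndex_sup_dvd` on the place model with
`hfin`, `hgen`, `hunit`, `htame`, `hroot` discharged. -/
theorem second_inequality_Kside_relIndex {p : ℕ} [Fact p.Prime] (hp2 : p ≠ 2) {ζ : K}
    (hζ : IsPrimitiveRoot ζ p) :
    ∃ S₀ : Finset (HeightOneSpectrum (𝓞 K)), ∀ S : Finset (V K),
      (∀ w : InfinitePlace K, Sum.inr w ∈ S) →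
      (∀ P : HeightOneSpectrum (𝓞 K), ((p : ℕ) : 𝓞 K) ∈ P.asIdeal → Sum.inl P ∈ S) →
      (∀ P ∈ S₀, Sum.inl P ∈ S) →
      (∏ v ∈ S, (Pw (A D) p v).index = p ^ (2 * S.card)) →
      CL (A D) (ι D) p → FI (A D) (ι D) (U D) p (tame p) →
      ∀ a : Kˣ, a ∉ PK (K := K) p → a ∈ sUnits (A D) (ι D) (U D) S →
      ∀ Nm : Subgroup (∀ v, A D v),
        (∀ y ∈ idele (A D) (U D), (∀ v ∈ S, y v ∈ Pw (A D) p v) →
          (∀ v, v ∉ S → ι D v a ∉ Pw (A D) p v → y v ∈ U D v) → y ∈ Nm) →
        ((diag (A D) (ι D)).range ⊔ Nm).relIndex (idele (A D) (U D)) ∣ p := by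
  obtain ⟨S₀, -, hS₀⟩ := hgen D ∅
  refine ⟨S₀, fun S hinf hwild hgenS hprod hCL hFI a ha haS Nm hNm => ?_⟩
  have hp0 : p ≠ 0 := (Fact.out : p.Prime).ne_zero
  exact relIndex_sup_dvd (A D) (ι D) (U D) p (hfin D) (tame p) S
    (mem_tame_of_notMem S hinf hwild) (hS₀ S hgenS) (hunit D hp2 hζ S hinf) hprod
    (Tame.htame D hζ) (fun v _ => Tame.hroot D hp0 v) hCL hFI a ha haS Nm hNm

/-- **Second inequality, K-side, quotient form** (`SecondIneq74.card_dvd_of_surjective` on the
place model): every quotient `Ψ : idele ↠ Q` killing the principal ideles and the obvious local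
norms of `K(a^{1/p})/K` has order dividing `p`. -/
theorem second_inequality_Kside {p : ℕ} [Fact p.Prime] (hp2 : p ≠ 2) {ζ : K}
    (hζ : IsPrimitiveRoot ζ p) :
    ∃ S₀ : Finset (HeightOneSpectrum (𝓞 K)), ∀ S : Finset (V K),
      (∀ w : InfinitePlace K, Sum.inr w ∈ S) →
      (∀ P : HeightOneSpectrum (𝓞 K), ((p : ℕ) : 𝓞 K) ∈ P.asIdeal → Sum.inl P ∈ S) →
      (∀ P ∈ S₀, Sum.inl P ∈ S) →
      (∏ v ∈ S, (Pw (A D) p v).index = p ^ (2 * S.card)) →
      CL (A D) (ι D) p → FI (A D) (ι D) (U D) p (tame p) →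
      ∀ a : Kˣ, a ∉ PK (K := K) p → a ∈ sUnits (A D) (ι D) (U D) S →
      ∀ {Q : Type*} [Group Q] (Ψ : idele (A D) (U D) →* Q), Function.Surjective Ψ →
        (∀ c : Kˣ, Ψ ⟨diag (A D) (ι D) c, hfin D c⟩ = 1) →
        (∀ y : idele (A D) (U D), (∀ v ∈ S, y.1 v ∈ Pw (A D) p v) →
          (∀ v, v ∉ S → ι D v a ∉ Pw (A D) p v → y.1 v ∈ U D v) → Ψ y = 1) →
        Nat.card Q ∣ p := by
  obtain ⟨S₀, -, hS₀⟩ := hgen D ∅
  refine ⟨S₀, fun S hinf hwild hgenS hprod hCL hFI a ha haS Q _ Ψ hΨ hdiag hBL => ?_⟩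
  have hp0 : p ≠ 0 := (Fact.out : p.Prime).ne_zero
  exact card_dvd_of_surjective (A D) (ι D) (U D) p (hfin D) (tame p) S
    (mem_tame_of_notMem S hinf hwild) (hS₀ S hgenS) (hunit D hp2 hζ S hinf) hprod
    (Tame.htame D hζ) (fun v _ => Tame.hroot D hp0 v) hCL hFI a ha haS Ψ hΨ hdiag hBL

end Fermat.Agent.S55.SecondInst30.Main
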