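/-
S55 / 32c-SECOND-INEQ-INST, part A3 (helper30): the K-SIDE of the second inequality on the place
model `SecondInst53.PlaceModel` with ALL arithmetic hypotheses of `SecondIneq74.relIndex_sup_dvd`
discharged (`hfin` helper53, `hgen`/`hunit` `SecondInst30.Main`, `htame`/`hroot`
`SecondInst30.Tame`, `hprod`/`hCL` helper57 `SecondInst57.{Prod,CL}`), except

* `hdeg : SecondInst57.DegreeFormula D p` (`Σ_{v | p} [K_v : ℚ_p] = [K : ℚ]`; helper57/helper39),
* `hFI  : FI (A D) (ι D) (U D) p (tame p)` (from the first inequality, bridge B),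
* the norm data `(Q, Ψ, hdiag, hBL)` resp. `(Nm, hNm)` (bridge B).

`K : Type` (universe `0`, as in `SecondInst57.hCL`).
-/
import Mathlib
import Fermat.Agent.S55.SecondInst30.Main
import Fermat.Agent.S55.SecondInst57.Prod
import Fermat.Agent.S55.SecondInst57.CL

set_option autoImplicit false

namespace Fermat.Agent.S55.SecondInst30.Main2

open IsDedekindDomain NumberField Fermat.Agent.S55.LocField17
  Fermat.Agent.S55.SecondInst53.PlaceModel Fermat.Agent.S55 Fermat.Agent.S55.SecondIneq74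

variable {K : Type} [Field K] [NumberField K] (D : PlaceData K)

/-- **Second inequality, K-side, quotient form, all arithmetic inputs discharged**: for `μ_p ⊆ K`,
`p` odd, there is a finite set `S₀` of primes of `K` such that for every finite set `S` of places
containing the infinite places, the places above `p` and `S₀`, every `a ∈ Kˣ ∖ Kˣᵖ` which is an
`S`-unit, and every quotient `Ψ : idele ↠ Q` killing the principal ideles and the obvious local
norms of `K(a^{1/p})/K`, the order of `Q` divides `p`. -/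
theorem second_inequality_Kside {p : ℕ} [hp : Fact p.Prime] (hp2 : 2 < p) {ζ : K}
    (hζ : IsPrimitiveRoot ζ p) (hdeg : SecondInst57.DegreeFormula D p) :
    ∃ S₀ : Finset (HeightOneSpectrum (𝓞 K)), ∀ S : Finset (V K),
      (∀ w : InfinitePlace K, Sum.inr w ∈ S) →
      (∀ P : HeightOneSpectrum (𝓞 K), ((p : ℕ) : 𝓞 K) ∈ P.asIdeal → Sum.inl P ∈ S) →
      (∀ P ∈ S₀, Sum.inl P ∈ S) →
      FI (A D) (ι D) (U D) p (tame p) →
      ∀ a : Kˣ, a ∉ PK (K := K) p → a ∈ sUnits (A D) (ι D) (U D) S →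
      ∀ {Q : Type*} [Group Q] (Ψ : idele (A D) (U D) →* Q), Function.Surjective Ψ →
        (∀ c : Kˣ, Ψ ⟨diag (A D) (ι D) c, hfin D c⟩ = 1) →
        (∀ y : idele (A D) (U D), (∀ v ∈ S, y.1 v ∈ Pw (A D) p v) →
          (∀ v, v ∉ S → ι D v a ∉ Pw (A D) p v → y.1 v ∈ U D v) → Ψ y = 1) →
        Nat.card Q ∣ p := by
  obtain ⟨S₀, hS₀⟩ := Main.second_inequality_Kside D (Nat.ne_of_gt hp2) hζ
  refine ⟨S₀, fun S hinf hwild hgenS hFI a ha haS Q _ Ψ hΨ hdiag hBL => ?_⟩
  exact hS₀ S hinf hwild hgenS (SecondInst57.hprod D p hζ hp2 hdeg S hwild hinf)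
    (SecondInst57.hCL D p hζ) hFI a ha haS Ψ hΨ hdiag hBL

/-- the same in subgroup form: `(idele : Kˣ · Nm) ∣ p` for every subgroup `Nm` of the ideles
containing the obvious local norms of `K(a^{1/p})/K`. -/
theorem second_inequality_Kside_relIndex {p : ℕ} [hp : Fact p.Prime] (hp2 : 2 < p) {ζ : K}
    (hζ : IsPrimitiveRoot ζ p) (hdeg : SecondInst57.DegreeFormula D p) :
    ∃ S₀ : Finset (HeightOneSpectrum (𝓞 K)), ∀ S : Finset (V K),
      (∀ w : InfinitePlace K, Sum.inr w ∈ S) →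
      (∀ P : HeightOneSpectrum (𝓞 K), ((p : ℕ) : 𝓞 K) ∈ P.asIdeal → Sum.inl P ∈ S) →
      (∀ P ∈ S₀, Sum.inl P ∈ S) →
      FI (A D) (ι D) (U D) p (tame p) →
      ∀ a : Kˣ, a ∉ PK (K := K) p → a ∈ sUnits (A D) (ι D) (U D) S →
      ∀ Nm : Subgroup (∀ v, A D v),
        (∀ y ∈ idele (A D) (U D), (∀ v ∈ S, y v ∈ Pw (A D) p v) →
          (∀ v, v ∉ S → ι D v a ∉ Pw (A D) p v → y v ∈ U D v) → y ∈ Nm) →
        ((diag (A D) (ι D)).range ⊔ Nm).relIndex (idele (A D) (U D)) ∣ p := by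
  obtain ⟨S₀, hS₀⟩ := Main.second_inequality_Kside_relIndex D (Nat.ne_of_gt hp2) hζ
  refine ⟨S₀, fun S hinf hwild hgenS hFI a ha haS Nm hNm => ?_⟩
  exact hS₀ S hinf hwild hgenS (SecondInst57.hprod D p hζ hp2 hdeg S hwild hinf)
    (SecondInst57.hCL D p hζ) hFI a ha haS Nm hNm

end Fermat.Agent.S55.SecondInst30.Main2
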