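/-
S55 / 32c-SECOND-INEQ-INST, part A3 (helper30): THE K-SIDE OF THE SECOND INEQUALITY, UNCONDITIONAL.

On the place model `SecondInst53.PlaceModel` (`D : PlaceData K`) every arithmetic hypothesis of
`SecondIneq74.relIndex_sup_dvd` is discharged (`hfin` helper53; `hgen`, `hunit`
`SecondInst30.Main`; `htame`, `hroot` `SecondInst30.Tame`; `hprod`, `hCL`, degree formula
helper57 `SecondInst57.{Prod,CL,Degree}`).  What is left is bridge B:
* `hFI  : FI (A D) (ι D) (U D) p (tame p)` (from the first inequality),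
* the norm data `(Q, Ψ, hdiag, hBL)` resp. `(Nm, hNm)`.
`PlaceData K` is nonempty by helper42 `UnrBridge42.nonempty_placeData`.
-/
import Mathlib
import Fermat.Agent.S55.SecondInst30.Main2
import Fermat.Agent.S55.SecondInst57.Degree

set_option autoImplicit false

namespace Fermat.Agent.S55.SecondInst30.Main3

open IsDedekindDomain NumberField Fermat.Agent.S55.LocField17
  Fermat.Agent.S55.SecondInst53.PlaceModel Fermat.Agent.S55 Fermat.Agent.S55.SecondIneq74

variable {K : Type} [Field K] [NumberField K] (D : PlaceData K)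

/-- **Second inequality, K-side, quotient form, unconditional**: `μ_p ⊆ K`, `p` odd.  There is a
finite set `S₀` of primes of `K` (depending only on `K`) such that for every finite set `S` of
places containing the infinite places, the places above `p` and `S₀`, every `S`-unit
`a ∈ Kˣ ∖ Kˣᵖ` and every quotient `Ψ : idele ↠ Q` killing the principal ideles and the obvious
local norms of `K(a^{1/p})/K`: `|Q|` divides `p` — provided `FI` holds. -/
theorem second_inequality_Kside {p : ℕ} [hp : Fact p.Prime] (hp2 : 2 < p) {ζ : K}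
    (hζ : IsPrimitiveRoot ζ p) :
    ∃ S₀ : Finset (HeightOneSpectrum (𝓞 K)), ∀ S : Finset (V K),
      (∀ w : InfinitePlace K, Sum.inr w ∈ S) →
      (∀ P : HeightOneSpectrum (𝓞 K), ((p : ℕ) : 𝓞 K) ∈ P.asIdeal → Sum.inl P ∈ S) →
      (∀ P ∈ S₀, Sum.inl P ∈ S) →
      FI (A D) (ι D) (U D) p (tame p) →
      ∀ a : Kˣ, a ∉ PK (K := K) p → a ∈ sUnits (A D) (ι D) (U D) S →
      ∀ {Q : Type*} [Group Q] (Ψ : idele (A D) (U D) →* Q), Function.Surjective Ψ →
        (∀ c : Kˣ, Ψ ⟨diag (A D) (ι D) c, hfin D c⟩ = 1) →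
        (∀ y : idele (A D) (U D), (∀ v ∈ S, y.1 v ∈ Pw (A D) p v) →
          (∀ v, v ∉ S → ι D v a ∉ Pw (A D) p v → y.1 v ∈ U D v) → Ψ y = 1) →
        Nat.card Q ∣ p :=
  Main2.second_inequality_Kside D hp2 hζ (SecondInst57.degreeFormula D p)

/-- the same in subgroup form. -/
theorem second_inequality_Kside_relIndex {p : ℕ} [hp : Fact p.Prime] (hp2 : 2 < p) {ζ : K}
    (hζ : IsPrimitiveRoot ζ p) :
    ∃ S₀ : Finset (HeightOneSpectrum (𝓞 K)), ∀ S : Finset (V K),
      (∀ w : InfinitePlace K, Sum.inr w ∈ S) →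
      (∀ P : HeightOneSpectrum (𝓞 K), ((p : ℕ) : 𝓞 K) ∈ P.asIdeal → Sum.inl P ∈ S) →
      (∀ P ∈ S₀, Sum.inl P ∈ S) →
      FI (A D) (ι D) (U D) p (tame p) →
      ∀ a : Kˣ, a ∉ PK (K := K) p → a ∈ sUnits (A D) (ι D) (U D) S →
      ∀ Nm : Subgroup (∀ v, A D v),
        (∀ y ∈ idele (A D) (U D), (∀ v ∈ S, y v ∈ Pw (A D) p v) →
          (∀ v, v ∉ S → ι D v a ∉ Pw (A D) p v → y v ∈ U D v) → y ∈ Nm) →
        ((diag (A D) (ι D)).range ⊔ Nm).relIndex (idele (A D) (U D)) ∣ p :=
  Main2.second_inequality_Kside_relIndex D hp2 hζ (SecondInst57.degreeFormula D p)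

/-- membership in the `S`-units of the place model, in Mathlib vocabulary. -/
theorem mem_sUnits_iff (S : Finset (V K)) (hinf : ∀ w : InfinitePlace K, Sum.inr w ∈ S)
    (a : Kˣ) :
    a ∈ sUnits (A D) (ι D) (U D) S ↔
      ∀ P : HeightOneSpectrum (𝓞 K), Sum.inl P ∉ S → P.valuation K (a : K) = 1 := by
  rw [mem_sUnits]
  constructor
  · intro h P hP
    exact (ι_inl_mem_U_iff D P a).mp (h _ hP)
  · rintro h (P | w) hv
    · exact (ι_inl_mem_U_iff D P a).mpr (h P hv)
    · exact absurd (hinf w) hv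

end Fermat.Agent.S55.SecondInst30.Main3
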