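/-
S55 / 32c-SECOND-INEQ-INST, bridge B, step (B4) (helper30): THE SECOND INEQUALITY (32-OUT)
`SecondIneqOut (CS hunr) H₀ p` for all layers below the stabiliser `H₀` of `ζ_p`, from
* the K-side count `SecondInst30.Main3.second_inequality_Kside` (unconditional),
* `FI` from the first inequality (`SecondInst30.FIStep.FI_of_firstIneq_of_psi`),
* the per-level norm residue maps `Ψ` (`ExistsPsi K D p` = the `∀`-closure of the statement of
  helper53's `SecondInst53.Output.exists_psi`, taken here as a hypothesis),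
* Kummer theory of the layer (`SecondInst30.FixK.exists_kummer_data`, `fixK_Kof`),
* existence of place data (`UnrBridge42.nonempty_placeData`).
-/
import Mathlib
import Fermat.Agent.S55.SecondInst30.FIStep
import Fermat.Agent.S55.SecondInst30.Main3
import Fermat.Agent.S55.SecondInst30.FixK
import Fermat.Agent.S55.UnrBridge42.Orbit

set_option autoImplicit false
set_option linter.unusedSectionVars false
set_option linter.unusedVariables false
set_option linter.style.haveILetI false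

open IsDedekindDomain NumberField

namespace Fermat.Agent.S55.SecondInst30.Final

open Fermat.Agent.S55.Idele73.Basic Fermat.Agent.S55.SecondIneq74
  Fermat.Agent.S55.SecondInst53.PlaceModel Fermat.Agent.S55.SecondInst53.Assembly
  Fermat.Agent.S55.Herbrand54 Fermat.Agent.S55.Adapt77.HcycGlue Fermat.Agent.S55.IdeleVal44

/-- the statement of helper53's `exists_psi`, closed over all levels `L' ⊇ K` and all Kummer
layers of `L'/K`: a surjection `Ψ` of the ideles of `K` onto `Ĥ⁰` of the layer, killing the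
principal ideles and the obvious local norms. -/
def ExistsPsi (K : IntermediateField ℚ Qbar) [FiniteDimensional ℚ K] (D : PlaceData ↥K) (p : ℕ) :
    Prop :=
  ∀ (L' : IntermediateField ℚ Qbar) [Normal ℚ L'] [FiniteDimensional ℚ L']
    (hKL' : K ≤ L') {S' : Finset Nat.Primes} (hS' : S'.Nonempty) (hunr : UnrOutside L' S')
    (N : Subgroup ↥(fixK L' K hKL')) [N.Normal] [Fintype (↥(fixK L' K hKL') ⧸ N)]
    (hcard : Fintype.card (↥(fixK L' K hKL') ⧸ N) = p) (g : ↥(fixK L' K hKL') ⧸ N)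
    (hg : ∀ x, x ∈ Subgroup.zpowers g) {α ζ' : ↥L'} (hα0 : α ≠ 0)
    (hstab : ∀ h : ↥(fixK L' K hKL'), (h : GalL L') α = α ↔ h ∈ N)
    (hζ' : IsPrimitiveRoot ζ' p) (hζH : ∀ h : ↥(fixK L' K hKL'), (h : GalL L') ζ' = ζ')
    (a : (↥K)ˣ) (ha : incl L' K hKL' (a : ↥K) = α ^ p),
    ∃ Ψ : idele (A D) (U D) →*
        Multiplicative (layerPair (CS hunr) (fixK L' K hKL') N g).H0,
      Function.Surjective Ψ ∧ (∀ c : (↥K)ˣ, Ψ ⟨diag (A D) (ι D) c, hfin D c⟩ = 1) ∧
      ∀ y : idele (A D) (U D),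
        (∀ v, y.1 v ∈ Pw (A D) p v ∨ ι D v a ∈ Pw (A D) p v ∨
          (v ∈ tame (K := ↥K) p ∧ ι D v a ∈ U D v ∧ y.1 v ∈ U D v)) → Ψ y = 1

section Kside

variable {K : Type} [Field K] [NumberField K] (D : PlaceData K)

/-- **K-side consumption**: every quotient `Ψ` of the ideles killing `Kˣ` and the obvious local
norms of `K(a^{1/p})/K` (the per-place trichotomy, at ALL places) has order dividing `p`. -/
theorem card_dvd_of_trichotomy {p : ℕ} [Fact p.Prime] (hp2 : 2 < p) {ζ : K}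
    (hζ : IsPrimitiveRoot ζ p) (hFI : FI (A D) (ι D) (U D) p (tame p)) (a : Kˣ)
    (haK : a ∉ PK (K := K) p) {Q : Type*} [Group Q] (Ψ : idele (A D) (U D) →* Q)
    (hΨ : Function.Surjective Ψ) (hdiag : ∀ c : Kˣ, Ψ ⟨diag (A D) (ι D) c, hfin D c⟩ = 1)
    (hloc : ∀ y : idele (A D) (U D),
      (∀ v, y.1 v ∈ Pw (A D) p v ∨ ι D v a ∈ Pw (A D) p v ∨
        (v ∈ tame (K := K) p ∧ ι D v a ∈ U D v ∧ y.1 v ∈ U D v)) → Ψ y = 1) :
    Nat.card Q ∣ p := by
  classical
  have hp : p.Prime := Fact.out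
  obtain ⟨S₀, hS₀⟩ := Main3.second_inequality_Kside D hp2 hζ
  have hp0 : ((p : ℕ) : 𝓞 K) ≠ 0 := by exact_mod_cast hp.ne_zero
  -- the finite set of places
  obtain ⟨SK, hinf, hwild, hS₀sub, haS⟩ : ∃ SK : Finset (V K),
      (∀ w : InfinitePlace K, Sum.inr w ∈ SK) ∧
      (∀ P : HeightOneSpectrum (𝓞 K), ((p : ℕ) : 𝓞 K) ∈ P.asIdeal → Sum.inl P ∈ SK) ∧
      (∀ P ∈ S₀, Sum.inl P ∈ SK) ∧ (∀ v, v ∉ SK → ι D v a ∈ U D v) := by
    refine ⟨((Finset.univ.image Sum.inr ∪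
      (finite_setOf_mem_asIdeal (K := K) hp0).toFinset.image Sum.inl) ∪ S₀.image Sum.inl) ∪
      (hfin D a).toFinset, ?_, ?_, ?_, ?_⟩
    · intro w
      exact Finset.mem_union_left _ (Finset.mem_union_left _ (Finset.mem_union_left _
        (Finset.mem_image_of_mem _ (Finset.mem_univ w))))
    · intro P hP
      have : P ∈ (finite_setOf_mem_asIdeal (K := K) hp0).toFinset := by
        rw [Set.Finite.mem_toFinset]; exact hP
      exact Finset.mem_union_left _ (Finset.mem_union_left _ (Finset.mem_union_right _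
        (Finset.mem_image_of_mem _ this)))
    · intro P hP
      exact Finset.mem_union_left _ (Finset.mem_union_right _ (Finset.mem_image_of_mem _ hP))
    · intro v hv
      by_contra hcon
      apply hv
      refine Finset.mem_union_right _ ?_
      rw [Set.Finite.mem_toFinset]
      exact hcon
  refine hS₀ SK hinf hwild hS₀sub hFI a haK ((mem_sUnits (A D) (ι D) (U D)).mpr haS) Ψ hΨ hdiag ?_
  intro y h1 h2
  apply hloc
  intro v
  by_cases hv : v ∈ SK
  · exact Or.inl (h1 v hv)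
  · by_cases ha : ι D v a ∈ Pw (A D) p v
    · exact Or.inr (Or.inl ha)
    · exact Or.inr (Or.inr ⟨Main.mem_tame_of_notMem SK hinf hwild v hv, haS v hv, h2 v hv ha⟩)

end Kside

variable {L : IntermediateField ℚ Qbar} [Normal ℚ L] [FiniteDimensional ℚ L]

/-- **one layer, literal `fixK` form**. -/
theorem card_layer_H0_dvd {K : IntermediateField ℚ Qbar} [FiniteDimensional ℚ K] (hKL : K ≤ L)
    (D : PlaceData ↥K) {p : ℕ} [Fact p.Prime] (hp2 : 2 < p) {S : Finset Nat.Primes}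
    (hpS : (⟨p, Fact.out⟩ : Nat.Primes) ∈ S) (hL : L.IsUnramifiedOutside S)
    (hunr : UnrOutside L S)
    (h31 : ∀ (S' : Finset Nat.Primes), S ⊆ S' → ∀ (L' : IntermediateField ℚ Qbar) [Normal ℚ L']
      [FiniteDimensional ℚ L'], L ≤ L' → ∀ h' : UnrOutside L' S', FirstIneqOut (CS h') ⊤ p)
    (hpsi : ExistsPsi K D p)
    (N : Subgroup ↥(fixK L K hKL)) [N.Normal] [Fintype (↥(fixK L K hKL) ⧸ N)]
    (hcard : Fintype.card (↥(fixK L K hKL) ⧸ N) = p) (g : ↥(fixK L K hKL) ⧸ N)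
    (hg : ∀ x, x ∈ Subgroup.zpowers g) {ζ' : ↥K} (hζ' : IsPrimitiveRoot ζ' p) {α : ↥L}
    (hα0 : α ≠ 0) (hstab : ∀ h : ↥(fixK L K hKL), (h : GalL L) α = α ↔ h ∈ N) (a : (↥K)ˣ)
    (ha : incl L K hKL (a : ↥K) = α ^ p) (haK : a ∉ PK (K := ↥K) p) :
    Nat.card (layerPair (CS hunr) (fixK L K hKL) N g).H0 ∣ p := by
  have hFI : FI (A D) (ι D) (U D) p (tame p) :=
    FIStep.FI_of_firstIneq_of_psi D hζ' S hpS L hKL hL h31 hpsi
  obtain ⟨Ψ, hΨsurj, hΨdiag, hΨloc⟩ := hpsi L hKL ⟨_, hpS⟩ hunr N hcard g hg hα0 hstab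
    (hζ'.map_of_injective (incl L K hKL).injective) (fun h => h.2 ζ') a ha
  have h := card_dvd_of_trichotomy D hp2 hζ' hFI a haK Ψ hΨsurj hΨdiag hΨloc
  exact h

/-- **one layer, `H = fixK L K hKL` propositionally**. -/
theorem card_layer_H0_dvd_of_eq {K : IntermediateField ℚ Qbar} [FiniteDimensional ℚ K]
    (hKL : K ≤ L) (D : PlaceData ↥K) {p : ℕ} [Fact p.Prime] (hp2 : 2 < p)
    {S : Finset Nat.Primes} (hpS : (⟨p, Fact.out⟩ : Nat.Primes) ∈ S)
    (hL : L.IsUnramifiedOutside S) (hunr : UnrOutside L S)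
    (h31 : ∀ (S' : Finset Nat.Primes), S ⊆ S' → ∀ (L' : IntermediateField ℚ Qbar) [Normal ℚ L']
      [FiniteDimensional ℚ L'], L ≤ L' → ∀ h' : UnrOutside L' S', FirstIneqOut (CS h') ⊤ p)
    (hpsi : ExistsPsi K D p) (H : Subgroup (GalL L)) (hH : H = fixK L K hKL)
    (N : Subgroup ↥H) [N.Normal] [Fintype (↥H ⧸ N)] (hcardN : Nat.card (↥H ⧸ N) = p)
    (g : ↥H ⧸ N) (hg : ∀ x, x ∈ Subgroup.zpowers g) {ζ' : ↥K} (hζ' : IsPrimitiveRoot ζ' p)
    {α : ↥L} (hα0 : α ≠ 0) (hstab : ∀ h : ↥H, (h : GalL L) α = α ↔ h ∈ N) (a : (↥K)ˣ)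
    (ha : incl L K hKL (a : ↥K) = α ^ p) (haK : a ∉ PK (K := ↥K) p) :
    Nat.card (layerPair (CS hunr) H N g).H0 ∣ p := by
  subst hH
  have hcard : Fintype.card (↥(fixK L K hKL) ⧸ N) = p := by
    rw [← Nat.card_eq_fintype_card]; exact hcardN
  exact card_layer_H0_dvd hKL D hp2 hpS hL hunr h31 hpsi N hcard g hg hζ' hα0 hstab a ha haK

/-- **(32-OUT) from (31-OUT) and the norm residue maps**: the second inequality for all cyclic
layers of order `p` (odd) below the stabiliser of `ζ_p`, at an `S`-level `L ∋ ζ_p`, `p ∈ S`. -/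
theorem secondIneqOut_of_psi {p : ℕ} [Fact p.Prime] (hp2 : 2 < p) {S : Finset Nat.Primes}
    (hpS : (⟨p, Fact.out⟩ : Nat.Primes) ∈ S) (hL : L.IsUnramifiedOutside S)
    (hunr : UnrOutside L S) (ζ : ↥L) (hζ : IsPrimitiveRoot ζ p) (H₀ : Subgroup (GalL L))
    (hH₀ : ∀ s ∈ H₀, s ζ = ζ)
    (h31 : ∀ (S' : Finset Nat.Primes), S ⊆ S' → ∀ (L' : IntermediateField ℚ Qbar) [Normal ℚ L']
      [FiniteDimensional ℚ L'], L ≤ L' → ∀ h' : UnrOutside L' S', FirstIneqOut (CS h') ⊤ p)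
    (hpsi : ∀ (K : IntermediateField ℚ Qbar) [FiniteDimensional ℚ K] (D : PlaceData ↥K),
      ExistsPsi K D p) :
    SecondIneqOut (CS hunr) H₀ p := by
  intro H hH N _ hcardN _ g hg
  obtain ⟨D⟩ := UnrBridge42.nonempty_placeData ↥(FixK.Kof L H)
  obtain ⟨ζ', a, α, hζ', -, hα0, ha, hstab, haK⟩ :=
    FixK.exists_kummer_data L H N hcardN hζ (fun h => hH₀ _ (hH h.2))
  exact card_layer_H0_dvd_of_eq (FixK.Kof_le L H) D hp2 hpS hL hunr h31
    (hpsi (FixK.Kof L H) D) H (FixK.fixK_Kof L H).symm N hcardN g hg hζ' hα0 hstab a ha haK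

end Fermat.Agent.S55.SecondInst30.Final
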