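/-
S55 / 32c-SECOND-INEQ-INST, bridge B, output end (helper30): the group `H0` of the Herbrand pair
of a layer `(H ⧸ N, C^N)` (`Adapt77.HcycGlue.layerPair`) as a QUOTIENT OF THE `H`-INVARIANTS.

For `C : Rep k G`, `N ⊴ H ≤ G`, `g` a generator of the finite group `H ⧸ N`:
* `invH C H`            : the additive subgroup of `H`-invariant elements of `C`;
* `clsH C H N g`        : `invH C H →+ (layerPair C H N g).H0`, the class map;
* `clsH_surjective`     : it is onto (`g` generates `H ⧸ N`);
* `clsH_eq_zero_iff`    : its kernel is the group of norms `∑_{x : H ⧸ N} ρ (r x) z`, `z ∈ C^N`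
                          (`r x := Quotient.out x`; any system of representatives: `norm_eq_sum`);
* `clsJ π`              : for a morphism `π : J ⟶ C` of representations, the composite
                          `invH J H →+ H0` ; it kills `ker π` and the norms from `J^N`; it is onto if
                          `H`-invariants lift along `π` (Hilbert 90 for `ker π`).
So `Q := (layerPair C H N g).H0` is, verbatim, the target of the map `Ψ` of
`SecondIneq74.card_dvd_of_surjective` / `SecondInst30.Main2.second_inequality_Kside`.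
-/
import Fermat.Agent.S55.Adapt77.HcycGlue

set_option autoImplicit false

open CategoryTheory Rep

universe u

namespace Fermat.Agent.S55.SecondInst30.LayerOut

open Fermat.Agent.S55.Herbrand54 Fermat.Agent.S55.HerbrandCyclic54
  Fermat.Agent.S55.HerbrandHcyc54 Fermat.Agent.S55.Adapt77.HcycGlue

variable {k G : Type u} [CommRing k] [Group G] (C : Rep.{u, u, u} k G) (H : Subgroup G)

/-- the `H`-invariant elements of `C`. -/
def invH : AddSubgroup C.V where
  carrier := {c | ∀ h : H, C.ρ (h : G) c = c}
  zero_mem' := fun h => map_zero _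
  add_mem' := fun {a b} ha hb h => by rw [map_add, ha h, hb h]
  neg_mem' := fun {a} ha h => by rw [map_neg, ha h]

theorem mem_invH {c : C.V} : c ∈ invH C H ↔ ∀ h : H, C.ρ (h : G) c = c := Iff.rfl

variable (N : Subgroup H) [N.Normal]

/-- an `N`-invariant element of `C` as an element of the layer module `(Res_H C)^N`. -/
def mkLayer (c : C.V) (hc : ∀ n : N, C.ρ (((n : H) : G)) c = c) : (layer C H N).V :=
  ⟨c, fun n => hc n⟩

@[simp] theorem coe_mkLayer (c : C.V) (hc : ∀ n : N, C.ρ (((n : H) : G)) c = c) :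
    ((mkLayer C H N c hc : (layer C H N).V) : C.V) = c := rfl

/-- the elements of the layer module are `N`-invariant. -/
theorem layer_inv (x : (layer C H N).V) (n : N) : C.ρ (((n : H) : G)) (x : C.V) = (x : C.V) :=
  x.2 n

/-- the action of `H ⧸ N` on the layer module. -/
theorem coe_layer_rho (h : H) (x : (layer C H N).V) :
    (((layer C H N).ρ (h : H ⧸ N) x : (layer C H N).V) : C.V) = C.ρ (h : G) (x : C.V) := rfl

variable [Fintype (H ⧸ N)] (g : H ⧸ N)

/-- the norm of the layer, in terms of the representatives `Quotient.out`. -/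
theorem coe_normHom (x : (layer C H N).V) :
    ((normHom (repRhoM (layer C H N)) x : (layer C H N).V) : C.V) =
      ∑ y : H ⧸ N, C.ρ (((Quotient.out y : H)) : G) (x : C.V) := by
  rw [HerbrandCyclic54.normHom_apply]
  have h1 : ∀ y : H ⧸ N, repRhoM (layer C H N) y x =
      (layer C H N).ρ ((Quotient.out y : H) : H ⧸ N) x := by
    intro y
    rw [repRhoM_apply]
    congr 2
    exact (QuotientGroup.out_eq' y).symm
  simp_rw [h1]
  rw [AddSubmonoidClass.coe_finsetSum]
  rfl

/-- the norm does not depend on the system of representatives. -/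
theorem norm_eq_sum (z : C.V) (hz : ∀ n : N, C.ρ (((n : H) : G)) z = z) (r : H ⧸ N → H)
    (hr : ∀ y, ((r y : H) : H ⧸ N) = y) :
    ∑ y : H ⧸ N, C.ρ ((r y : H) : G) z = ∑ y : H ⧸ N, C.ρ (((Quotient.out y : H)) : G) z := by
  refine Finset.sum_congr rfl fun y _ => ?_
  have h1 : ((r y : H) : H ⧸ N) = ((Quotient.out y : H) : H ⧸ N) := by
    rw [hr y, QuotientGroup.out_eq']
  have h2 := coe_layer_rho C H N (r y) (mkLayer C H N z hz)
  have h3 := coe_layer_rho C H N (Quotient.out y) (mkLayer C H N z hz)
  rw [coe_mkLayer] at h2 h3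
  rw [← h2, ← h3, h1]

variable {g}

/-- an `H`-invariant element is a cycle of the Herbrand pair of the layer. -/
theorem f_mkLayer_eq_zero (c : C.V) (hc : c ∈ invH C H) :
    (layerPair C H N g).f (mkLayer C H N c (fun n => hc n)) = 0 := by
  rw [cyclicPair_f_apply, sub_eq_zero]
  induction g using QuotientGroup.induction_on with
  | H h =>
    apply Subtype.ext
    rw [repRhoM_apply]
    exact hc h

variable (g)

/-- **the class map** `C^H →+ H0(H ⧸ N, C^N) = C^H / N_{H/N} C^N`. -/
noncomputable def clsH : invH C H →+ (layerPair C H N g).H0 where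
  toFun c := (layerPair C H N g).cls (mkLayer C H N c.1 (fun n => c.2 n))
    (f_mkLayer_eq_zero C H N c.1 c.2)
  map_zero' := by
    rw [Pair.cls_eq_zero_iff]
    exact ⟨0, by rw [map_zero]; rfl⟩
  map_add' a b := by
    rw [← Pair.cls_add]
    rfl

theorem clsH_apply (c : invH C H) :
    clsH C H N g c = (layerPair C H N g).cls (mkLayer C H N c.1 (fun n => c.2 n))
      (f_mkLayer_eq_zero C H N c.1 c.2) := rfl

variable {g}

/-- the class map is onto when `g` generates `H ⧸ N`. -/
theorem clsH_surjective (hg : ∀ x, x ∈ Subgroup.zpowers g) :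
    Function.Surjective (clsH C H N g) := by
  intro q
  obtain ⟨⟨x, hx⟩, rfl⟩ := QuotientAddGroup.mk_surjective q
  have hx' : (layerPair C H N g).f x = 0 := hx
  have hinv := (cyclicPair_f_eq_zero_iff (repRhoM (layer C H N)) hg x).mp hx'
  have hc : (x : C.V) ∈ invH C H := by
    intro h
    have := congrArg Subtype.val (hinv (h : H ⧸ N))
    rw [repRhoM_apply] at this
    exact this
  exact ⟨⟨(x : C.V), hc⟩, rfl⟩

/-- the kernel of the class map: the norms from `C^N`. -/
theorem clsH_eq_zero_iff (c : invH C H) :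
    clsH C H N g c = 0 ↔ ∃ z : C.V, (∀ n : N, C.ρ (((n : H) : G)) z = z) ∧
      ∑ y : H ⧸ N, C.ρ (((Quotient.out y : H)) : G) z = c.1 := by
  rw [clsH_apply, Pair.cls_eq_zero_iff]
  constructor
  · rintro ⟨z, hz⟩
    refine ⟨(z : C.V), layer_inv C H N z, ?_⟩
    rw [← coe_normHom]
    have := congrArg Subtype.val hz
    rw [coe_mkLayer] at this
    exact this
  · rintro ⟨z, hzN, hz⟩
    refine ⟨mkLayer C H N z hzN, ?_⟩
    apply Subtype.ext
    rw [coe_mkLayer]
    show ((normHom (repRhoM (layer C H N)) (mkLayer C H N z hzN) : (layer C H N).V) : C.V) = _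
    rw [coe_normHom, coe_mkLayer]
    exact hz

/-! ### Presentations `π : J ⟶ C` -/

variable {C} {J : Rep.{u, u, u} k G} (π : J ⟶ C)

theorem map_mem_invH {j : J.V} (hj : j ∈ invH J H) : π.hom j ∈ invH C H := by
  intro h
  rw [← Rep.hom_comm_apply, hj h]

variable (g)

/-- the class map of a presentation: `J^H →+ H0(H ⧸ N, C^N)`. -/
noncomputable def clsJ : invH J H →+ (layerPair C H N g).H0 :=
  (clsH C H N g).comp
    { toFun := fun j => ⟨π.hom j.1, map_mem_invH H π j.2⟩
      map_zero' := Subtype.ext (map_zero _)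
      map_add' := fun _ _ => Subtype.ext (map_add _ _ _) }

theorem clsJ_apply (j : invH J H) :
    clsJ H N g π j = clsH C H N g ⟨π.hom j.1, map_mem_invH H π j.2⟩ := rfl

variable {g}

/-- the class map of a presentation kills `ker π`. -/
theorem clsJ_eq_zero_of_map_eq_zero (j : invH J H) (hj : π.hom j.1 = 0) :
    clsJ H N g π j = 0 := by
  rw [clsJ_apply]
  have : (⟨π.hom j.1, map_mem_invH H π j.2⟩ : invH C H) = 0 := Subtype.ext hj
  rw [this, map_zero]

/-- the class map of a presentation kills the norms from `J^N` (any representatives). -/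
theorem clsJ_eq_zero_of_norm (j : invH J H) (z : J.V)
    (hz : ∀ n : N, J.ρ (((n : H) : G)) z = z) (r : H ⧸ N → H)
    (hr : ∀ y, ((r y : H) : H ⧸ N) = y) (hj : ∑ y : H ⧸ N, J.ρ ((r y : H) : G) z = j.1) :
    clsJ H N g π j = 0 := by
  rw [clsJ_apply, clsH_eq_zero_iff]
  refine ⟨π.hom z, fun n => by rw [← Rep.hom_comm_apply, hz n], ?_⟩
  have h1 : ∀ y : H ⧸ N, C.ρ (((Quotient.out y : H)) : G) (π.hom z) =
      π.hom (J.ρ (((Quotient.out y : H)) : G) z) := fun y => (Rep.hom_comm_apply π _ z).symm
  simp_rw [h1]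
  rw [← map_sum, ← norm_eq_sum J H N z hz r hr, hj]

/-- the class map of a presentation is onto if `H`-invariants lift along `π`. -/
theorem clsJ_surjective (hg : ∀ x, x ∈ Subgroup.zpowers g)
    (hlift : ∀ c ∈ invH C H, ∃ j ∈ invH J H, π.hom j = c) :
    Function.Surjective (clsJ H N g π) := by
  intro q
  obtain ⟨c, rfl⟩ := clsH_surjective C H N hg q
  obtain ⟨j, hj, hjc⟩ := hlift c.1 c.2
  refine ⟨⟨j, hj⟩, ?_⟩
  rw [clsJ_apply]
  congr 1
  exact Subtype.ext hjc

end Fermat.Agent.S55.SecondInst30.LayerOut
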