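/-
S55 / 32c-SECOND-INEQ-INST, bridge B, (BL)(2) and the per-place trichotomy in the literal
`NormPred.IsNorm` shape of helper53's final cut (helper30).

* `isNorm_Phi_of_mem_Pw` : if `a = α ^ p` is a `p`-th power in `K_v` then `Phi v z` is a norm of the
  layer `(H, N)`, `H = Gal(L/K) = fixK L K hKL`, `N ⊇ Stab_H(α)`, for EVERY `z ∈ K_vˣ`;
* `isNorm_Phi_of_mem_Pw_self` : `Phi v (c ^ p)` is a norm (index `p`);
* `isNorm_Phi_of_cases` : the three (BL) cases at a finite place combined.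

All three are thin wrappers around helper89's `LocUnr89.TamePhi` / `LocUnr89.PhiCases`
(`PhiCases.IsNormJq` is definitionally `NormPred.IsNorm`).
-/
import Mathlib
import Fermat.Agent.S55.LocUnr89.PhiCases
import Fermat.Agent.S55.SecondInst53.NormPred

set_option autoImplicit false
set_option linter.unusedSectionVars false
set_option linter.unusedVariables false

open IsDedekindDomain NumberField

namespace Fermat.Agent.S55.SecondInst30.SplitNorm

open Fermat.Agent.S55.Idele73.Basic Fermat.Agent.S55.Idele73.PlaceField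
  Fermat.Agent.S55.Idele73 Fermat.Agent.S55.SecondIneq74
  Fermat.Agent.S55.SecondInst53.PlaceModel Fermat.Agent.S55.SecondInst53.Assembly
  Fermat.Agent.S55.SecondInst53 Fermat.Agent.S55.LocUnr89

variable {L K : IntermediateField ℚ Qbar} [Normal ℚ L] [FiniteDimensional ℚ L]
  [FiniteDimensional ℚ K] (hKL : K ≤ L) (D : PlaceData ↥K)

/-- `PhiCases.IsNormJq` is `NormPred.IsNorm` (definitionally). -/
theorem isNorm_iff_isNormJq (q : ℕ) [Fact q.Prime] (N : Subgroup ↥(fixK L K hKL))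
    [Fintype (↥(fixK L K hKL) ⧸ N)] (F : (Jq q L).V) :
    NormPred.IsNorm (fixK L K hKL) N (Jq q L) F ↔ PhiCases.IsNormJq (hKL := hKL) q N F :=
  Iff.rfl

/-- an `H`-fixed element of `L` lies in `K` (`H = fixK L K hKL`). -/
theorem exists_incl_eq_of_fixed (y : ↥L) (hy : ∀ h : ↥(fixK L K hKL), (h : GalL L) y = y) :
    ∃ x : ↥K, incl L K hKL x = y := by
  apply TamePhi.exists_incl_eq_of_mem_fixedField (hKL := hKL)
  rw [IntermediateField.mem_fixedField_iff]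
  intro s hs
  exact hy ⟨s, hs⟩

/-- **(BL)(2) in `IsNorm` form** (helper53's literal request): if `ι_v a` is a `p`-th power in
`K_vˣ`, `a = α ^ p`, `Stab_H(α) ≤ N`, `ζ_p ∈ K`, then `Phi v z` is a norm for every `z`. -/
theorem isNorm_Phi_of_mem_Pw (N : Subgroup ↥(fixK L K hKL)) [N.Normal]
    [Fintype (↥(fixK L K hKL) ⧸ N)] {p : ℕ} [Fact p.Prime] {α : ↥L} (hα0 : α ≠ 0)
    (hstab : ∀ h : ↥(fixK L K hKL), (h : GalL L) α = α → h ∈ N) {ζ : ↥L}
    (hζ : IsPrimitiveRoot ζ p) (hζH : ∀ h : ↥(fixK L K hKL), (h : GalL L) ζ = ζ) (a : (↥K)ˣ)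
    (ha : incl L K hKL (a : ↥K) = α ^ p) (v : HeightOneSpectrum (𝓞 ↥K))
    (hPw : ι D (Sum.inl v) a ∈ Pw (A D) p (Sum.inl v)) (z : (D.locField v)ˣ) :
    NormPred.IsNorm (fixK L K hKL) N (Jq (D.ℓ v) L) (Phi hKL D v z) := by
  have hp : p.Prime := Fact.out
  obtain ⟨ζ', hζ'⟩ := exists_incl_eq_of_fixed hKL ζ hζH
  have hζp : ζ' ^ p = 1 := by
    have h : incl L K hKL (ζ' ^ p) = incl L K hKL 1 := by
      rw [map_pow, hζ', hζ.pow_eq_one, map_one]
    exact (incl L K hKL).injective h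
  have hζ1 : ζ' ≠ 1 := by
    intro h
    apply hζ.ne_one hp.one_lt
    rw [← hζ', h, map_one]
  obtain ⟨g₀, hg₀⟩ := RelDict24.exists_inPl hKL D v
  obtain ⟨c, hc'⟩ : ∃ c : (D.locField v)ˣ, c ^ p = ιf D v a := hPw
  have hβp : ((c : D.locField v) : PadicAlgCl (D.ℓ v)) ^ p = D.σ v (a : K) := by
    have := congrArg (fun u : (D.locField v)ˣ => ((u : D.locField v) : PadicAlgCl (D.ℓ v))) hc'
    simpa using this
  obtain ⟨Z, hZN, -, -, hZ⟩ := TamePhi.Phi_eq_norm_of_split (hKL := hKL) hp v N ha.symm hstab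
    hζp hζ1 (c : D.locField v).2 hβp hg₀ z
  exact ⟨Z, hZN, hZ⟩

/-- **(BL)(1) in `IsNorm` form**: `Phi v (c ^ p)` is a norm when `[H : N] = p`. -/
theorem isNorm_Phi_pow (N : Subgroup ↥(fixK L K hKL)) [Fintype (↥(fixK L K hKL) ⧸ N)] {p : ℕ}
    (hcard : Fintype.card (↥(fixK L K hKL) ⧸ N) = p) (v : HeightOneSpectrum (𝓞 ↥K))
    (c : (D.locField v)ˣ) :
    NormPred.IsNorm (fixK L K hKL) N (Jq (D.ℓ v) L) (Phi hKL D v (c ^ p)) :=
  PhiCases.isNormJq_Phi_pow (hKL := hKL) v N hcard c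

/-- **the per-place (BL) trichotomy in `IsNorm` form**: `z ∈ Pw`, or `ι_v a ∈ Pw`, or
(`v` tame, `ι_v a` and `z` units) — in all three cases `Phi v z` is a norm of the layer. -/
theorem isNorm_Phi_of_cases (N : Subgroup ↥(fixK L K hKL)) [N.Normal]
    [Fintype (↥(fixK L K hKL) ⧸ N)] {p : ℕ} [Fact p.Prime]
    (hcard : Fintype.card (↥(fixK L K hKL) ⧸ N) = p) {α : ↥L}
    (hstab : ∀ h : ↥(fixK L K hKL), (h : GalL L) α = α ↔ h ∈ N) {ζ : ↥L}
    (hζ : IsPrimitiveRoot ζ p) (hζH : ∀ h : ↥(fixK L K hKL), (h : GalL L) ζ = ζ) (a : (↥K)ˣ)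
    (ha : incl L K hKL (a : ↥K) = α ^ p) (v : HeightOneSpectrum (𝓞 ↥K)) (z : A D (Sum.inl v))
    (hcase : z ∈ Pw (A D) p (Sum.inl v) ∨
      ι D (Sum.inl v) a ∈ Pw (A D) p (Sum.inl v) ∨
      ((Sum.inl v : V ↥K) ∈ tame (K := ↥K) p ∧ ι D (Sum.inl v) a ∈ U D (Sum.inl v) ∧
        z ∈ U D (Sum.inl v))) :
    NormPred.IsNorm (fixK L K hKL) N (Jq (D.ℓ v) L) (Phi hKL D v z) := by
  have hp : p.Prime := Fact.out
  obtain ⟨ζ', hζ'⟩ := exists_incl_eq_of_fixed hKL ζ hζH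
  have hζp : ζ' ^ p = 1 := by
    have h : incl L K hKL (ζ' ^ p) = incl L K hKL 1 := by
      rw [map_pow, hζ', hζ.pow_eq_one, map_one]
    exact (incl L K hKL).injective h
  have hζ1 : ζ' ≠ 1 := by
    intro h
    apply hζ.ne_one hp.one_lt
    rw [← hζ', h, map_one]
  exact PhiCases.Phi_isNorm_of_cases (hKL := hKL) hp N hcard ha.symm (fun h => (hstab h).symm)
    hζp hζ1 v z hcase

end Fermat.Agent.S55.SecondInst30.SplitNorm
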