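/-
S55 / 32c-SECOND-INEQ-INST (helper30): **(32-OUT) CLOSED modulo (31-OUT)**.

`secondIneqOut`: for a finite Galois level `L/ℚ` unramified outside `S ∋ p`, `p` odd, `ζ_p ∈ L`, and
every subgroup `H₀ ≤ Gal(L/ℚ)` fixing `ζ_p`:
`Adapt77.HcycGlue.SecondIneqOut (IdeleVal44.CS hunr) H₀ p`, i.e. `|Ĥ⁰(H/N, C_S(L)^N)| ∣ p` for all
layers `N ⊴ H ≤ H₀` of order `p` — GIVEN ONLY the first inequality
`FirstIneqOut (CS h') ⊤ p` at all bigger levels `L' ⊇ L`, `S' ⊇ S`.

= `SecondInst30.Final.secondIneqOut_of_psi` / `SecondInst30.FIStep.FI_of_firstIneq_of_psi` with the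
hypothesis `ExistsPsi` discharged by helper53's `SecondInst53.Output.exists_psi`.
-/
import Mathlib
import Fermat.Agent.S55.SecondInst30.Final
import Fermat.Agent.S55.SecondInst53.Output

set_option autoImplicit false
set_option linter.unusedSectionVars false
set_option linter.unusedVariables false

open IsDedekindDomain NumberField

namespace Fermat.Agent.S55.SecondInst30.SecondIneqOut

open Fermat.Agent.S55.Idele73.Basic Fermat.Agent.S55.SecondIneq74
  Fermat.Agent.S55.SecondInst53.PlaceModel Fermat.Agent.S55.SecondInst53.Assembly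
  Fermat.Agent.S55.Adapt77.HcycGlue Fermat.Agent.S55.IdeleVal44

/-- helper53's `exists_psi`, as the closed hypothesis `ExistsPsi` of `FIStep` / `Final`. -/
theorem existsPsi (K : IntermediateField ℚ Qbar) [FiniteDimensional ℚ K] (D : PlaceData ↥K)
    (p : ℕ) [Fact p.Prime] : Final.ExistsPsi K D p :=
  fun L' _ _ hKL' _ hS' hunr N _ _ hcard g hg _ _ _ hstab hζ' hζH a ha =>
    SecondInst53.Output.exists_psi hKL' D hunr hS' N hcard g hg hstab hζ' hζH a ha

/-- **(B3) closed**: `FI` on the place model of `K ∋ ζ_p` from the first inequality at all levels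
above an `S`-level `L ⊇ K`, `p ∈ S`. -/
theorem FI_of_firstIneq {K : IntermediateField ℚ Qbar} [FiniteDimensional ℚ K] (D : PlaceData ↥K)
    {p : ℕ} [Fact p.Prime] {ζ : ↥K} (hζ : IsPrimitiveRoot ζ p) (S : Finset Nat.Primes)
    (hpS : (⟨p, Fact.out⟩ : Nat.Primes) ∈ S) (L : IntermediateField ℚ Qbar) [Normal ℚ L]
    [FiniteDimensional ℚ L] (hKL : K ≤ L) (hL : L.IsUnramifiedOutside S)
    (h31 : ∀ (S' : Finset Nat.Primes), S ⊆ S' → ∀ (L' : IntermediateField ℚ Qbar) [Normal ℚ L']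
      [FiniteDimensional ℚ L'], L ≤ L' → ∀ h' : UnrOutside L' S', FirstIneqOut (CS h') ⊤ p) :
    FI (A D) (ι D) (U D) p (tame p) :=
  FIStep.FI_of_firstIneq_of_psi D hζ S hpS L hKL hL h31 (existsPsi K D p)

/-- **(32-OUT) from (31-OUT)**: the second inequality for all cyclic layers of odd prime order `p`
below the stabiliser of `ζ_p`, at an `S`-level `L ∋ ζ_p`, `p ∈ S`. -/
theorem secondIneqOut {L : IntermediateField ℚ Qbar} [Normal ℚ L] [FiniteDimensional ℚ L] {p : ℕ}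
    [Fact p.Prime] (hp2 : 2 < p) {S : Finset Nat.Primes}
    (hpS : (⟨p, Fact.out⟩ : Nat.Primes) ∈ S) (hL : L.IsUnramifiedOutside S)
    (hunr : UnrOutside L S) (ζ : ↥L) (hζ : IsPrimitiveRoot ζ p) (H₀ : Subgroup (GalL L))
    (hH₀ : ∀ s ∈ H₀, s ζ = ζ)
    (h31 : ∀ (S' : Finset Nat.Primes), S ⊆ S' → ∀ (L' : IntermediateField ℚ Qbar) [Normal ℚ L']
      [FiniteDimensional ℚ L'], L ≤ L' → ∀ h' : UnrOutside L' S', FirstIneqOut (CS h') ⊤ p) :
    SecondIneqOut (CS hunr) H₀ p :=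
  Final.secondIneqOut_of_psi hp2 hpS hL hunr ζ hζ H₀ hH₀ h31 (fun K _ D => existsPsi K D p)

end Fermat.Agent.S55.SecondInst30.SecondIneqOut
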