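/-
S55 / 32c-SECOND-INEQ-INST (helper30): ASSEMBLING a homomorphism out of the ideles from local
homomorphisms (model-free; Mathlib + `SecondIneq74.Core` only).

Data: `(A, U)` as in `SecondIneq74.Core`, a commutative group `X`, local homomorphisms
`φ v : A v →* X` which kill the local units `U v` outside a finite set `F₀` of places.  Then
`assemble φ : idele A U →* X`, `y ↦ ∏ᶠ v, φ v (y v)` is a homomorphism with
* `assemble_eq_prod`     : it is the finite product over any finite set containing the support;
* `assemble_mem`         : if every local component lands in a subgroup `B`, so does the product;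
* `assemble_single`      : on the idele `a` at `v` (and `1` elsewhere) it is `φ v a`;
* `assemble_surjective`  : it is onto as soon as the images of the `φ v` generate `X`;
* `assemble_diag`        : on a principal idele it is `∏ᶠ v, φ v (ι v x)`.
This is the skeleton of the map `Ψ : idele ↠ C^H / N C^N` of the bridge B
(`SecondIneq74.card_dvd_of_surjective`).  Additive targets: take `X := Multiplicative Y`.
-/
import Mathlib
import Fermat.Agent.S55.SecondIneq74.Core

set_option autoImplicit false

namespace Fermat.Agent.S55.SecondInst30.Assemble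

open Fermat.Agent.S55.SecondIneq74 Function

variable {V : Type*} (A : V → Type*) [∀ v, CommGroup (A v)] (U : ∀ v, Subgroup (A v))
  {X : Type*} [CommGroup X] (φ : ∀ v, A v →* X)

/-- the local homomorphisms kill the local units outside the finite set `F₀`. -/
def KillsUnits (F₀ : Set V) : Prop := ∀ v, v ∉ F₀ → ∀ u ∈ U v, φ v u = 1

variable {A U φ}

theorem mulSupport_subset {F₀ : Set V} (h : KillsUnits A U φ F₀) (y : ∀ v, A v) :
    mulSupport (fun v => φ v (y v)) ⊆ F₀ ∪ {v | y v ∉ U v} := by
  intro v hv
  by_contra hcon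
  rw [Set.mem_union, not_or] at hcon
  apply hv
  have hyU : y v ∈ U v := by
    by_contra h'
    exact hcon.2 h'
  exact h v hcon.1 _ hyU

theorem finite_mulSupport {F₀ : Set V} (hF₀ : F₀.Finite) (h : KillsUnits A U φ F₀)
    {y : ∀ v, A v} (hy : y ∈ idele A U) : (mulSupport (fun v => φ v (y v))).Finite :=
  (hF₀.union hy).subset (mulSupport_subset h y)

variable (A U φ)

/-- **the assembled homomorphism** `idele A U →* X`, `y ↦ ∏ᶠ v, φ v (y v)`. -/
noncomputable def assemble {F₀ : Set V} (hF₀ : F₀.Finite) (h : KillsUnits A U φ F₀) :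
    idele A U →* X where
  toFun y := ∏ᶠ v, φ v (y.1 v)
  map_one' := by
    have : (fun v => φ v ((1 : idele A U).1 v)) = fun _ => (1 : X) := by
      funext v
      show φ v ((1 : ∀ v, A v) v) = 1
      rw [Pi.one_apply, map_one]
    rw [this, finprod_one]
  map_mul' y z := by
    have hmul : (fun v => φ v ((y * z).1 v)) = fun v => φ v (y.1 v) * φ v (z.1 v) := by
      funext v
      show φ v ((y.1 * z.1) v) = _
      rw [Pi.mul_apply, map_mul]
    rw [hmul]
    exact finprod_mul_distrib (finite_mulSupport hF₀ h y.2) (finite_mulSupport hF₀ h z.2)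

variable {A U φ}
variable {F₀ : Set V} (hF₀ : F₀.Finite) (h : KillsUnits A U φ F₀)

theorem assemble_apply (y : idele A U) :
    assemble A U φ hF₀ h y = ∏ᶠ v, φ v (y.1 v) := rfl

/-- the assembled map is the finite product over any finite set outside which the local
components are trivial. -/
theorem assemble_eq_prod (y : idele A U) (F : Finset V) (hF : ∀ v, v ∉ F → φ v (y.1 v) = 1) :
    assemble A U φ hF₀ h y = ∏ v ∈ F, φ v (y.1 v) := by
  rw [assemble_apply]
  apply finprod_eq_prod_of_mulSupport_subset
  intro v hv
  by_contra hcon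
  exact hv (hF v hcon)

/-- the assembled map is the finite product over any finite set containing `F₀` and the places
where `y` is not a unit. -/
theorem assemble_eq_prod' (y : idele A U) (F : Finset V) (hF₀F : F₀ ⊆ F)
    (hyF : ∀ v, v ∉ F → y.1 v ∈ U v) :
    assemble A U φ hF₀ h y = ∏ v ∈ F, φ v (y.1 v) :=
  assemble_eq_prod hF₀ h y F fun v hv => h v (fun hv0 => hv (hF₀F hv0)) _ (hyF v hv)

/-- if every local component lands in the subgroup `B`, so does the assembled element. -/
theorem assemble_mem (B : Subgroup X) (y : idele A U) (hy : ∀ v, φ v (y.1 v) ∈ B) :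
    assemble A U φ hF₀ h y ∈ B := by
  rw [assemble_apply]
  exact finprod_induction (fun x => x ∈ B) B.one_mem (fun _ _ => B.mul_mem) hy

/-- if every local component is trivial, so is the assembled element. -/
theorem assemble_eq_one (y : idele A U) (hy : ∀ v, φ v (y.1 v) = 1) :
    assemble A U φ hF₀ h y = 1 := by
  have := assemble_mem hF₀ h ⊥ y (fun v => by rw [Subgroup.mem_bot]; exact hy v)
  rwa [Subgroup.mem_bot] at this

section Single

variable [DecidableEq V]

/-- the idele `a` at `v`, `1` elsewhere. -/
theorem mulSingle_mem_idele (v : V) (a : A v) : Pi.mulSingle v a ∈ idele A U := by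
  refine (Set.finite_singleton v).subset ?_
  intro w hw
  by_contra hne
  apply hw
  rw [Set.mem_singleton_iff] at hne
  rw [Pi.mulSingle_eq_of_ne hne]
  exact (U w).one_mem

theorem assemble_single (v : V) (a : A v) :
    assemble A U φ hF₀ h ⟨Pi.mulSingle v a, mulSingle_mem_idele v a⟩ = φ v a := by
  rw [assemble_eq_prod hF₀ h _ {v}]
  · rw [Finset.prod_singleton]
    show φ v (Pi.mulSingle v a v) = φ v a
    rw [Pi.mulSingle_eq_same]
  · intro w hw
    rw [Finset.mem_singleton] at hw
    show φ w (Pi.mulSingle v a w) = 1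
    rw [Pi.mulSingle_eq_of_ne hw, map_one]

/-- the range of the assembled map contains the ranges of all local maps. -/
theorem range_le_range_assemble (v : V) : (φ v).range ≤ (assemble A U φ hF₀ h).range := by
  rintro _ ⟨a, rfl⟩
  exact ⟨⟨Pi.mulSingle v a, mulSingle_mem_idele v a⟩, assemble_single hF₀ h v a⟩

/-- the assembled map is onto as soon as the local images generate `X`. -/
theorem assemble_surjective (hgen : ⨆ v, (φ v).range = ⊤) :
    Function.Surjective (assemble A U φ hF₀ h) := by
  rw [← MonoidHom.range_eq_top, eq_top_iff, ← hgen]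
  exact iSup_le fun v => range_le_range_assemble hF₀ h v

/-- variant: onto a quotient.  If `π : X →* Q` is onto and the local images together with `π.ker`
generate `X`, then `π ∘ assemble` is onto. -/
theorem comp_assemble_surjective {Q : Type*} [Group Q] (π : X →* Q) (hπ : Function.Surjective π)
    (hgen : (⨆ v, (φ v).range) ⊔ π.ker = ⊤) :
    Function.Surjective (π.comp (assemble A U φ hF₀ h)) := by
  intro q
  obtain ⟨x, rfl⟩ := hπ q
  have hx : x ∈ (⨆ v, (φ v).range) ⊔ π.ker := by rw [hgen]; exact Subgroup.mem_top x
  obtain ⟨a, ha, k, hk, rfl⟩ := Subgroup.mem_sup.mp hx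
  have ha' : a ∈ (assemble A U φ hF₀ h).range :=
    (iSup_le fun v => range_le_range_assemble hF₀ h v) ha
  obtain ⟨y, rfl⟩ := ha'
  refine ⟨y, ?_⟩
  rw [MonoidHom.comp_apply, map_mul, MonoidHom.mem_ker.mp hk, mul_one]

end Single

section Diag

variable {K : Type*} [Field K] (ι : ∀ v, Kˣ →* A v)
  (hfin : ∀ x : Kˣ, {v | ι v x ∉ U v}.Finite)

/-- the assembled map on a principal idele. -/
theorem assemble_diag (x : Kˣ) :
    assemble A U φ hF₀ h ⟨diag A ι x, hfin x⟩ = ∏ᶠ v, φ v (ι v x) := rfl

/-- the assembled map on a principal idele, as a finite product. -/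
theorem assemble_diag_eq_prod (x : Kˣ) (F : Finset V) (hF₀F : F₀ ⊆ F)
    (hxF : ∀ v, v ∉ F → ι v x ∈ U v) :
    assemble A U φ hF₀ h ⟨diag A ι x, hfin x⟩ = ∏ v ∈ F, φ v (ι v x) :=
  assemble_eq_prod' hF₀ h _ F hF₀F hxF

end Diag

end Fermat.Agent.S55.SecondInst30.Assemble
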