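/-
S55 / 32c-SECOND-INEQ-INST, bridge B, (BL) GLOBAL (helper30): under the hypotheses on an idele `y`
of `hBL` in `SecondInst30.Main3.second_inequality_Kside`
(`y_v ∈ Pw` for `v ∈ S`; `y_v ∈ U_v` for `v ∉ S` with `ι_v a ∉ Pw`), with `S ⊇` the infinite
places and the places above `p`, `a` an `S`-unit, EVERY local component `Phi v (y (inl v))` and
hence every `PhiQ q y` (helper24) is a norm of the layer `(H, N)`, `H = fixK L K hKL`.
-/
import Mathlib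
import Fermat.Agent.S55.SecondInst30.SplitNorm
import Fermat.Agent.S55.SecondInst30.Main
import Fermat.Agent.S55.RelDict24.PhiQ

set_option autoImplicit false
set_option linter.unusedSectionVars false
set_option linter.unusedVariables false

open IsDedekindDomain NumberField

namespace Fermat.Agent.S55.SecondInst30.BLGlobal

open Fermat.Agent.S55.Idele73.Basic Fermat.Agent.S55.Idele73.PlaceField
  Fermat.Agent.S55.Idele73 Fermat.Agent.S55.SecondIneq74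
  Fermat.Agent.S55.SecondInst53.PlaceModel Fermat.Agent.S55.SecondInst53.Assembly
  Fermat.Agent.S55.SecondInst53 Fermat.Agent.S55.LocUnr89 Fermat.Agent.S55.RelDict24

variable {L K : IntermediateField ℚ Qbar} [Normal ℚ L] [FiniteDimensional ℚ L]
  [FiniteDimensional ℚ K] (hKL : K ≤ L) (D : PlaceData ↥K)

/-- the per-place trichotomy holds for every `y` satisfying the hypotheses of `hBL`. -/
theorem cases_of_hBL {p : ℕ} (S : Finset (V ↥K))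
    (hinf : ∀ w : InfinitePlace ↥K, Sum.inr w ∈ S)
    (hwild : ∀ P : HeightOneSpectrum (𝓞 ↥K), ((p : ℕ) : 𝓞 ↥K) ∈ P.asIdeal → Sum.inl P ∈ S)
    (a : (↥K)ˣ) (haS : a ∈ sUnits (A D) (ι D) (U D) S) (y : ∀ v : V ↥K, A D v)
    (h1 : ∀ v ∈ S, y v ∈ Pw (A D) p v)
    (h2 : ∀ v, v ∉ S → ι D v a ∉ Pw (A D) p v → y v ∈ U D v)
    (v : HeightOneSpectrum (𝓞 ↥K)) :
    y (Sum.inl v) ∈ Pw (A D) p (Sum.inl v) ∨
      ι D (Sum.inl v) a ∈ Pw (A D) p (Sum.inl v) ∨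
      ((Sum.inl v : V ↥K) ∈ tame (K := ↥K) p ∧ ι D (Sum.inl v) a ∈ U D (Sum.inl v) ∧
        y (Sum.inl v) ∈ U D (Sum.inl v)) := by
  by_cases hv : (Sum.inl v : V ↥K) ∈ S
  · exact Or.inl (h1 _ hv)
  · by_cases ha : ι D (Sum.inl v) a ∈ Pw (A D) p (Sum.inl v)
    · exact Or.inr (Or.inl ha)
    · refine Or.inr (Or.inr ⟨Main.mem_tame_of_notMem S hinf hwild _ hv, ?_, h2 _ hv ha⟩)
      exact (mem_sUnits (A D) (ι D) (U D)).mp haS _ hv

/-- **(BL), per place**: every finite component of `y` maps to a norm. -/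
theorem isNorm_Phi_of_hBL (N : Subgroup ↥(fixK L K hKL)) [N.Normal]
    [Fintype (↥(fixK L K hKL) ⧸ N)] {p : ℕ} [Fact p.Prime]
    (hcard : Fintype.card (↥(fixK L K hKL) ⧸ N) = p) {α : ↥L}
    (hstab : ∀ h : ↥(fixK L K hKL), (h : GalL L) α = α ↔ h ∈ N) {ζ : ↥L}
    (hζ : IsPrimitiveRoot ζ p) (hζH : ∀ h : ↥(fixK L K hKL), (h : GalL L) ζ = ζ) (a : (↥K)ˣ)
    (ha : incl L K hKL (a : ↥K) = α ^ p) (S : Finset (V ↥K))
    (hinf : ∀ w : InfinitePlace ↥K, Sum.inr w ∈ S)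
    (hwild : ∀ P : HeightOneSpectrum (𝓞 ↥K), ((p : ℕ) : 𝓞 ↥K) ∈ P.asIdeal → Sum.inl P ∈ S)
    (haS : a ∈ sUnits (A D) (ι D) (U D) S) (y : ∀ v : V ↥K, A D v)
    (h1 : ∀ v ∈ S, y v ∈ Pw (A D) p v)
    (h2 : ∀ v, v ∉ S → ι D v a ∉ Pw (A D) p v → y v ∈ U D v)
    (v : HeightOneSpectrum (𝓞 ↥K)) :
    NormPred.IsNorm (fixK L K hKL) N (Jq (D.ℓ v) L) (Phi hKL D v (y (Sum.inl v))) :=
  SplitNorm.isNorm_Phi_of_cases hKL D N hcard hstab hζ hζH a ha v (y (Sum.inl v))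
    (cases_of_hBL D S hinf hwild a haS y h1 h2 v)

/-- **(BL), per prime `q`**: `PhiQ q y` is a norm of the layer, for every `y` as in `hBL`. -/
theorem isNorm_PhiQ_of_hBL (N : Subgroup ↥(fixK L K hKL)) [N.Normal]
    [Fintype (↥(fixK L K hKL) ⧸ N)] {p : ℕ} [Fact p.Prime]
    (hcard : Fintype.card (↥(fixK L K hKL) ⧸ N) = p) {α : ↥L}
    (hstab : ∀ h : ↥(fixK L K hKL), (h : GalL L) α = α ↔ h ∈ N) {ζ : ↥L}
    (hζ : IsPrimitiveRoot ζ p) (hζH : ∀ h : ↥(fixK L K hKL), (h : GalL L) ζ = ζ) (a : (↥K)ˣ)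
    (ha : incl L K hKL (a : ↥K) = α ^ p) (S : Finset (V ↥K))
    (hinf : ∀ w : InfinitePlace ↥K, Sum.inr w ∈ S)
    (hwild : ∀ P : HeightOneSpectrum (𝓞 ↥K), ((p : ℕ) : 𝓞 ↥K) ∈ P.asIdeal → Sum.inl P ∈ S)
    (haS : a ∈ sUnits (A D) (ι D) (U D) S) (y : ∀ v : V ↥K, A D v)
    (h1 : ∀ v ∈ S, y v ∈ Pw (A D) p v)
    (h2 : ∀ v, v ∉ S → ι D v a ∉ Pw (A D) p v → y v ∈ U D v)
    (q : ℕ) [Fact q.Prime] :
    NormPred.IsNorm (fixK L K hKL) N (Jq q L) (PhiQ hKL D q y).toAdd :=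
  PhiQ_isNorm hKL D q N y fun v _ =>
    isNorm_Phi_of_hBL hKL D N hcard hstab hζ hζH a ha S hinf hwild haS y h1 h2 v

end Fermat.Agent.S55.SecondInst30.BLGlobal
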