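/-
S55 / 32-SECOND-INEQ (helper30): **(32-OUT), UNCONDITIONAL**.

`secondIneqOut_CS`: for every finite Galois level `L/ℚ` unramified outside a finite set `S ∋ p`,
`p` an odd prime, `ζ_p ∈ L`, and every subgroup `H₀ ≤ Gal(L/ℚ)` fixing `ζ_p`:
`Adapt77.HcycGlue.SecondIneqOut (IdeleVal44.CS hunr) H₀ p`, i.e. `|Ĥ⁰(H/N, C_S(L)^N)| ∣ p` for all
layers `N ⊴ H ≤ H₀` of order `p` of helper44's `S`-idele class module.

= `SecondInst30.SecondIneqOut.secondIneqOut` (second inequality modulo the first) fed with the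
unconditional first inequality `Idele73.FirstOutFinal.firstIneqOut_CS_prime` (helper73/27/16/1).
-/
import Mathlib
import Fermat.Agent.S55.SecondInst30.SecondIneqOut
import Fermat.Agent.S55.Idele73.FirstOutFinal

set_option autoImplicit false
set_option linter.unusedSectionVars false

namespace Fermat.Agent.S55.SecondInst30.SecondIneqOutFinal

open Fermat.Agent.S55.Idele73.Basic Fermat.Agent.S55.Adapt77.HcycGlue
  Fermat.Agent.S55.IdeleVal44

variable {L : IntermediateField ℚ Qbar} [Normal ℚ L] [FiniteDimensional ℚ L]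

/-- **(32-OUT), unconditional**: the second inequality for all cyclic layers of odd prime order
`p` below the stabiliser of `ζ_p`, at every `S`-level `L ∋ ζ_p`, `p ∈ S`. -/
theorem secondIneqOut_CS {p : ℕ} [Fact p.Prime] (hp2 : 2 < p) {S : Finset Nat.Primes}
    (hpS : (⟨p, Fact.out⟩ : Nat.Primes) ∈ S) (hL : L.IsUnramifiedOutside S)
    (hunr : UnrOutside L S) (ζ : ↥L) (hζ : IsPrimitiveRoot ζ p) (H₀ : Subgroup (GalL L))
    (hH₀ : ∀ s ∈ H₀, s ζ = ζ) : SecondIneqOut (CS hunr) H₀ p :=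
  SecondIneqOut.secondIneqOut hp2 hpS hL hunr ζ hζ H₀ hH₀ fun S' hSS' L' _ _ _ h' =>
    Fermat.Agent.S55.Idele73.FirstOutFinal.firstIneqOut_CS_prime h' ⟨_, hSS' hpS⟩ p (by omega)

/-- the same at the canonical class module `CSlevel L hL` of an `S`-level. -/
theorem secondIneqOut_CSlevel {p : ℕ} [Fact p.Prime] (hp2 : 2 < p) {S : Finset Nat.Primes}
    (hpS : (⟨p, Fact.out⟩ : Nat.Primes) ∈ S) (hL : L.IsUnramifiedOutside S) (ζ : ↥L)
    (hζ : IsPrimitiveRoot ζ p) (H₀ : Subgroup (GalL L)) (hH₀ : ∀ s ∈ H₀, s ζ = ζ) :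
    SecondIneqOut (CSlevel L hL) H₀ p :=
  secondIneqOut_CS hp2 hpS hL (unrOutside_of_level L hL) ζ hζ H₀ hH₀

/-- both inequalities together, below the stabiliser of `ζ_p`. -/
theorem bothIneqOut_CS {p : ℕ} [Fact p.Prime] (hp2 : 2 < p) {S : Finset Nat.Primes}
    (hpS : (⟨p, Fact.out⟩ : Nat.Primes) ∈ S) (hL : L.IsUnramifiedOutside S)
    (hunr : UnrOutside L S) (ζ : ↥L) (hζ : IsPrimitiveRoot ζ p) (H₀ : Subgroup (GalL L))
    (hH₀ : ∀ s ∈ H₀, s ζ = ζ) :
    FirstIneqOut (CS hunr) ⊤ p ∧ SecondIneqOut (CS hunr) H₀ p :=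
  ⟨Fermat.Agent.S55.Idele73.FirstOutFinal.firstIneqOut_CS_prime hunr ⟨_, hpS⟩ p (by omega),
    secondIneqOut_CS hp2 hpS hL hunr ζ hζ H₀ hH₀⟩

end Fermat.Agent.S55.SecondInst30.SecondIneqOutFinal
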