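/-
S55 (helper30): **the arithmetic input of 33 for `C_S`, UNCONDITIONAL**, and with it
**conjunct (5) of `CDArith63.P1Chain.HasFormationDatum`, UNCONDITIONAL**.

* `ineqOut_CS` : helper79's named input `CS79.CofinalCS.IneqOut S p ℚ(ζ_p) (ker χ_p)`
  (31-OUT ∧ 32-OUT at every Galois `S`-level `L ⊇ ℚ(ζ_p)`), from helper1/73's unconditional first
  inequality and `SecondInst30.SecondIneqOutFinal.secondIneqOut_CS`;
* `h1_primary_CSp` : for every open `V` on which the mod `p` cyclotomic character is trivial, the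
  `p`-primary part of the level `H¹(V, J_S/E_S)` vanishes (`p` odd, `p ∈ S`): the proof of
  helper77's `Adapt77.Conj5.h1_primary_CSp` with the two named inequalities discharged.
  (`Adapt77.Conj5.SecondIneqMu` quantifies over all `L` with `UnrOutside L S`; our second
  inequality needs the Prelude form `L.IsUnramifiedOutside S`, which `IneqOut` provides.)
-/
import Mathlib
import Fermat.Agent.S55.Adapt77.Conj5
import Fermat.Agent.S55.SecondInst30.SecondIneqOutFinal
import Fermat.Agent.S55.MuLevel19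

set_option autoImplicit false

open CategoryTheory

namespace Fermat.Agent.S55.SecondInst30.Conj5Final

open ExtCitation
open Fermat.Agent.S55.Profin15 Fermat.Agent.S55.Profin15.LevelStr
open Fermat.Agent.S55.Idele73.Basic
open Fermat.Agent.S55.CD3
open Fermat.Agent.S55.GlobalMod94.JS
open Fermat.Agent.S55.Adapt77.HcycGlue Fermat.Agent.S55.Adapt77.MuSubgroup
open Fermat.Agent.S55.CS79.CofinalCS

variable {S : Finset Nat.Primes} {p : ℕ} [Fact p.Prime]

/-- **the arithmetic input of 33 for `C_S`, unconditional**: both inequalities at every Galois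
`S`-level `L ⊇ ℚ(ζ_p)`, the second one below `H₀ = muSub p L = π_L(ker χ_p)`. -/
theorem ineqOut_CS (hpS : pPrime p ∈ S) (hp2 : p ≠ 2) {ζ : Qbar} (hζ : IsPrimitiveRoot ζ p) :
    IneqOut S p (IntermediateField.adjoin ℚ {ζ}) (cycloChar p).ker := by
  intro L _ hL hle h
  have hp : p.Prime := Fact.out
  have h2 : 2 < p := lt_of_le_of_ne hp.two_le (Ne.symm hp2)
  have : FiniteDimensional ℚ L := hL.1
  have hζL : ζ ∈ L := hle (IntermediateField.mem_adjoin_simple_self ℚ ζ)
  have hζ' : IsPrimitiveRoot (⟨ζ, hζL⟩ : L) p :=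
    IsPrimitiveRoot.of_map_of_injective (f := L.val) (by simpa using hζ) L.val.injective
  refine ⟨Fermat.Agent.S55.SUnit1.FirstOutFinal.firstIneqOut_CS h ⟨_, hpS⟩ p
    (hp.odd_of_ne_two hp2), muSub p L, le_refl _, ?_⟩
  exact SecondIneqOutFinal.secondIneqOut_CS h2 hpS hL h ⟨ζ, hζL⟩ hζ' (muSub p L)
    (fun g hg => Fermat.Agent.S55.MuLevel19.fixes_of_mem_map_ker p L hζ.pow_eq_one hζL hg)

/-- **CONJUNCT (5) of `HasFormationDatum`, UNCONDITIONAL** (`p` odd, `p ∈ S`): for every open `V`
on which the mod `p` cyclotomic character is trivial, the `p`-primary part of the level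
`H¹(V, J_S/E_S)` vanishes. -/
theorem h1_primary_CSp (hpS : pPrime p ∈ S) (hp2 : p ≠ 2)
    (V : Subgroup GQ) (hV : IsOpenSub (globalLevels S) V) (hmu : ∀ σ ∈ V, cycloChar p σ = 1)
    (y : (restrictLevels (globalLevels S) V hV).H1 (Rep.res V.subtype (CSp S))) (n : ℕ)
    (hy : p ^ n • y = 0) : y = 0 := by
  obtain ⟨ζ, hζ⟩ : ∃ ζ : Qbar, IsPrimitiveRoot ζ p :=
    HasEnoughRootsOfUnity.exists_primitiveRoot Qbar p
  have hS : S.Nonempty := ⟨_, hpS⟩
  have hL₀ : (IntermediateField.adjoin ℚ {ζ} : IntermediateField ℚ Qbar).IsUnramifiedOutside S :=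
    Fermat.Agent.S55.UnrKummer72.isUnramifiedOutside_rootOfUnity hpS hζ.pow_eq_one
  have hfin := finiteLevelH1_CS hS hL₀ (ineqOut_CS hpS hp2 hζ) V
    (fun σ hσ => MonoidHom.mem_ker.mpr (hmu σ hσ))
  exact Fermat.Agent.S55.S1Limit41.Transfer.hC1_primary_of_class
    (restrictLevels (globalLevels S) V hV)
    ((Fermat.Agent.S55.ClassData72.shortExact S).res V.subtype)
    (Fermat.Agent.S55.CS79.Restrict.isSmooth_res (Fermat.Agent.S55.ClassData72.isSmooth_CSl S) hV)
    (Fermat.Agent.S55.ClassData72.isPrimeToP_ClS S hpS)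
    (Fermat.Agent.S55.S1Limit41.H1Cofinal.H1_primary_eq_zero_res
      (Fermat.Agent.S55.ClassData72.isSmooth_CSl S) hV p hfin) y n hy

end Fermat.Agent.S55.SecondInst30.Conj5Final
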