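/-
S55 / 32c-SECOND-INEQ-INST, bridge B (helper30): the SPLIT-PLACE input `hsplit` of
`SecondIneq74.CoindNorm.exists_norm_of_split` in the coind model (`Idele73.Basic` vocabulary).

`L` a level, `H ≤ GalL L`, `N ≤ H`, `α ∈ L` with stabiliser `N` in `H` (`LayerKummer`), `ζ ∈ L` a
primitive `p`-th root of unity fixed by `H`, `g ∈ GalL L` (a place of `K = L^H`: the double coset
`D_q g H`).  If `ι (g (α ^ p))` is a `p`-th power `b ^ p` of an element `b` of the local field
`K_v = ℚ_q(ι (g K))` — i.e. `b` is fixed by every `τ ∈ G_q` whose image lies in `g H g⁻¹` — then the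
place splits completely in `L^N = K(α)`:  `locHom τ * g = g * h` with `h ∈ H` forces `h ∈ N`.

Also: the `PlaceModel` form, with `ι D (inl v) a ∈ Pw (A D) p (inl v)` as the hypothesis.
-/
import Mathlib
import Fermat.Agent.S55.Idele73.Basic
import Fermat.Agent.S55.SecondInst53.PlaceModel

set_option autoImplicit false

namespace Fermat.Agent.S55.SecondInst30.Split

open IsDedekindDomain NumberField Fermat.Agent.S55.Idele73.Basic
  Fermat.Agent.S55.SecondInst53.PlaceModel Fermat.Agent.S55 Fermat.Agent.S55.SecondIneq74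

variable (q : ℕ) [Fact q.Prime] (L : IntermediateField ℚ Qbar) [Normal ℚ L]

/-- `τ ∘ ι ∘ g = ι ∘ g ∘ h` when `locHom τ * g = g * h`. -/
theorem apply_iotaL_of_mul_eq {τ : Gq q} {g h : GalL L} (hτ : locHom q L τ * g = g * h) (x : L) :
    τ (iotaL q L (g x)) = iotaL q L (g (h x)) := by
  rw [← iotaL_locHom]
  congr 1
  have := congrArg (fun s : GalL L => s x) hτ
  simpa using this

/-- an automorphism fixing a set pointwise fixes the field it generates over `ℚ_q`. -/
theorem fixes_adjoin (τ : Gq q) (S : Set (PadicAlgCl q)) (hS : ∀ s ∈ S, τ s = s)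
    {b : PadicAlgCl q} (hb : b ∈ IntermediateField.adjoin ℚ_[q] S) : τ b = b := by
  induction hb using IntermediateField.adjoin_induction with
  | mem y hy => exact hS y hy
  | algebraMap c => exact τ.commutes c
  | add y z _ _ hy hz => rw [map_add, hy, hz]
  | inv y _ hy => rw [map_inv₀, hy]
  | mul y z _ _ hy hz => rw [map_mul, hy, hz]

variable {q L}

/-- **split places**: if `ι (g (α ^ p)) = b ^ p` with `b` in the local field of the place `g` of
`K = L^H`, then the decomposition group of the place meets `H` inside `N = Stab_H(α)`. -/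
theorem mem_of_locHom_mul_eq (H : Subgroup (GalL L)) (N : Subgroup H) {p : ℕ} (hp0 : p ≠ 0)
    {α ζ : L} (hα0 : α ≠ 0) (hstab : ∀ h : H, (h : GalL L) α = α → h ∈ N)
    (hζ : IsPrimitiveRoot ζ p) (hζH : ∀ h : H, (h : GalL L) ζ = ζ) (g : GalL L)
    {b : PadicAlgCl q} (hb : b ^ p = iotaL q L (g (α ^ p)))
    (hbfix : ∀ (τ : Gq q) (h : H), locHom q L τ * g = g * (h : GalL L) → τ b = b) :
    ∀ (τ : Gq q) (h : H), locHom q L τ * g = g * (h : GalL L) → h ∈ N := by
  intro τ h hτ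
  apply hstab h
  apply (g : L ≃ₐ[ℚ] L).injective
  apply iotaL_injective q L
  rw [← apply_iotaL_of_mul_eq q L hτ α]
  -- `ι (g α) = ξ * b` with `ξ ∈ μ_p` a power of `ι (g ζ)`
  set a' : PadicAlgCl q := iotaL q L (g α) with ha'
  have ha'0 : a' ≠ 0 := by
    rw [ha', Ne, map_eq_zero, map_eq_zero]
    exact hα0
  have hpow : a' ^ p = b ^ p := by
    rw [hb, ha', ← map_pow, ← map_pow]
  have hb0 : b ≠ 0 := by
    rintro rfl
    rw [zero_pow hp0] at hpow
    exact ha'0 (pow_eq_zero_iff hp0 |>.mp hpow)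
  have hξ : (a' / b) ^ p = 1 := by
    rw [div_pow, hpow, div_self (pow_ne_zero _ hb0)]
  have hζ' : IsPrimitiveRoot (iotaL q L (g ζ)) p :=
    hζ.map_of_injective (f := (iotaL q L).comp (g : L ≃ₐ[ℚ] L).toAlgHom.toRingHom)
      ((iotaL_injective q L).comp (g : L ≃ₐ[ℚ] L).injective)
  have : NeZero p := ⟨hp0⟩
  obtain ⟨i, -, hi⟩ := hζ'.eq_pow_of_pow_eq_one hξ
  have hτζ : τ (iotaL q L (g ζ)) = iotaL q L (g ζ) := by
    rw [apply_iotaL_of_mul_eq q L hτ ζ, hζH h]
  have hτξ : τ (a' / b) = a' / b := by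
    rw [← hi, map_pow, hτζ]
  have hdecomp : a' = (a' / b) * b := by field_simp
  calc τ a' = τ ((a' / b) * b) := by rw [← hdecomp]
    _ = (a' / b) * b := by rw [map_mul, hτξ, hbfix τ h hτ]
    _ = a' := hdecomp.symm

/-! ### `PlaceModel` form -/

variable {K : IntermediateField ℚ Qbar} (hKL : K ≤ L) [NumberField K] (D : PlaceData K)

/-- **split places, `PlaceModel` form**: `v` a finite place of `K = L^H` cut out by
`σ_v = ι ∘ g ∘ incl`, `a ∈ Kˣ` with `a = α ^ p` in `L`.  If `a` is a local `p`-th power at `v`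
(`ι D (inl v) a ∈ Pw (A D) p (inl v)`), then `v` splits completely in `L^N`. -/
theorem mem_of_mem_Pw (H : Subgroup (GalL L)) (N : Subgroup H) {p : ℕ} (hp0 : p ≠ 0)
    (hHK : ∀ (h : H) (x : K), (h : GalL L) (IntermediateField.inclusion hKL x) =
      IntermediateField.inclusion hKL x)
    {α ζ : L} (hα0 : α ≠ 0) (hstab : ∀ h : H, (h : GalL L) α = α → h ∈ N)
    (hζ : IsPrimitiveRoot ζ p) (hζH : ∀ h : H, (h : GalL L) ζ = ζ)
    (v : HeightOneSpectrum (𝓞 K)) (g : GalL L)
    (hcmp : ∀ x : K, D.σ v x = iotaL (D.ℓ v) L (g (IntermediateField.inclusion hKL x)))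
    (a : Kˣ) (ha : IntermediateField.inclusion hKL (a : K) = α ^ p)
    (hPw : ι D (Sum.inl v) a ∈ Pw (A D) p (Sum.inl v)) :
    ∀ (τ : Gq (D.ℓ v)) (h : H), locHom (D.ℓ v) L τ * g = g * (h : GalL L) → h ∈ N := by
  obtain ⟨c, hc'⟩ : ∃ c : (D.locField v)ˣ, c ^ p = ιf D v a := hPw
  set b : PadicAlgCl (D.ℓ v) := ((c : D.locField v) : PadicAlgCl (D.ℓ v)) with hbdef
  have hb : b ^ p = iotaL (D.ℓ v) L (g (α ^ p)) := by
    have h1 := congrArg (fun u : (D.locField v)ˣ => ((u : D.locField v) : PadicAlgCl (D.ℓ v))) hc'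
    simp only [Units.val_pow_eq_pow_val, SubmonoidClass.coe_pow, ιf_coe] at h1
    rw [hbdef, h1, hcmp, ha]
  refine mem_of_locHom_mul_eq H N hp0 hα0 hstab hζ hζH g hb ?_
  intro τ h hτ
  refine fixes_adjoin (D.ℓ v) τ (Set.range (D.σ v)) ?_ (c : D.locField v).2
  rintro _ ⟨x, rfl⟩
  rw [hcmp, apply_iotaL_of_mul_eq (D.ℓ v) L hτ, hHK h x]

end Fermat.Agent.S55.SecondInst30.Split
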